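import Mathlib

/-!
# Approximation of the roots of a quartic polynomial depending on a small parameter
-/

set_option autoImplicit false

open Polynomial

namespace Fermat.Agent.SW

/-- A monic quartic polynomial splits. -/
theorem exists_roots (c₂ c₁ c₀ : ℂ) : ∃ r : Fin 4 → ℂ, ∀ Y : ℂ,
    Y ^ 4 + c₂ * Y ^ 2 + c₁ * Y + c₀ = ∏ j, (Y - r j) := by
  have root : ∀ (a b c : ℂ), ∃ x : ℂ, x ^ 3 + a * x ^ 2 + b * x + c = 0 := by
    intro a b c
    obtain ⟨x, hx⟩ := IsAlgClosed.exists_root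
      (X ^ 3 + C a * X ^ 2 + C b * X + C c : ℂ[X]) (by
        have : (X ^ 3 + C a * X ^ 2 + C b * X + C c : ℂ[X]).degree = 3 := by compute_degree!
        rw [this]; decide)
    refine ⟨x, ?_⟩
    simpa [IsRoot.def] using hx
  have root2 : ∀ (a b : ℂ), ∃ x : ℂ, x ^ 2 + a * x + b = 0 := by
    intro a b
    obtain ⟨x, hx⟩ := IsAlgClosed.exists_root
      (X ^ 2 + C a * X + C b : ℂ[X]) (by
        have : (X ^ 2 + C a * X + C b : ℂ[X]).degree = 2 := by compute_degree!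
        rw [this]; decide)
    refine ⟨x, ?_⟩
    simpa [IsRoot.def] using hx
  obtain ⟨r₀, h₀⟩ : ∃ x : ℂ, x ^ 4 + c₂ * x ^ 2 + c₁ * x + c₀ = 0 := by
    obtain ⟨x, hx⟩ := IsAlgClosed.exists_root
      (X ^ 4 + C c₂ * X ^ 2 + C c₁ * X + C c₀ : ℂ[X]) (by
        have : (X ^ 4 + C c₂ * X ^ 2 + C c₁ * X + C c₀ : ℂ[X]).degree = 4 := by compute_degree!
        rw [this]; decide)
    refine ⟨x, ?_⟩
    simpa [IsRoot.def] using hx
  obtain ⟨r₁, h₁⟩ := root r₀ (c₂ + r₀ ^ 2) (c₁ + c₂ * r₀ + r₀ ^ 3)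
  obtain ⟨r₂, h₂⟩ := root2 (r₀ + r₁) (c₂ + r₀ ^ 2 + r₀ * r₁ + r₁ ^ 2)
  refine ⟨![r₀, r₁, r₂, -(r₀ + r₁ + r₂)], fun Y => ?_⟩
  rw [Fin.prod_univ_four]
  simp only [Matrix.cons_val_zero, Matrix.cons_val_one, Matrix.cons_val]
  linear_combination h₀ + (Y - r₀) * h₁ + (Y - r₀) * (Y - r₁) * h₂

/-- Approximate roots which are well separated are close to all roots. -/
theorem near_root (r β : Fin 4 → ℂ) {δ η : ℝ} (hδ : 0 < δ) (hη : η < (δ / 4) ^ 4)
    (hsep : ∀ i j, i ≠ j → δ ≤ ‖β i - β j‖) (hβ : ∀ i, ‖∏ j, (β i - r j)‖ ≤ η) (j : Fin 4) :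
    ∃ i, ‖β i - r j‖ ≤ η / (δ / 2) ^ 3 := by
  have h1 : ∀ i, ∃ j, ‖β i - r j‖ ≤ δ / 4 := by
    intro i
    by_contra h
    push Not at h
    have h2 : (δ / 4) ^ 4 ≤ ‖∏ j, (β i - r j)‖ := by
      rw [norm_prod]
      have h3 : ∏ _j : Fin 4, (δ / 4) ≤ ∏ j : Fin 4, ‖β i - r j‖ :=
        Finset.prod_le_prod (fun _ _ => by positivity) fun j _ => (h j).le
      rwa [Finset.prod_const, Finset.card_univ, Fintype.card_fin] at h3
    exact absurd (h2.trans (hβ i)) (not_le.mpr hη)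
  choose J hJ using h1
  have hinj : Function.Injective J := by
    intro i i' hii
    by_contra hne
    have h2 := hsep i i' hne
    have h3 : ‖β i - β i'‖ ≤ δ / 4 + δ / 4 := by
      have e : β i - β i' = (β i - r (J i)) - (β i' - r (J i)) := by ring
      rw [e]
      refine (norm_sub_le _ _).trans (add_le_add (hJ i) ?_)
      rw [hii]
      exact hJ i'
    linarith
  obtain ⟨i, rfl⟩ := (Finite.injective_iff_surjective.mp hinj) j
  refine ⟨i, ?_⟩
  have h2 : ∀ j', j' ≠ J i → δ / 2 ≤ ‖β i - r j'‖ := by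
    intro j' hj'
    obtain ⟨i', rfl⟩ := (Finite.injective_iff_surjective.mp hinj) j'
    have hne : i ≠ i' := fun h => hj' (by rw [h])
    have h3 := hsep i i' hne
    have h4 : ‖β i - β i'‖ ≤ ‖β i - r (J i')‖ + ‖β i' - r (J i')‖ := by
      have e : β i - β i' = (β i - r (J i')) - (β i' - r (J i')) := by ring
      rw [e]
      exact norm_sub_le _ _
    have h5 := hJ i'
    linarith
  rw [le_div_iff₀ (by positivity)]
  refine le_trans ?_ (hβ i)
  rw [norm_prod, ← Finset.mul_prod_erase Finset.univ (fun j => ‖β i - r j‖) (Finset.mem_univ (J i))]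
  refine mul_le_mul_of_nonneg_left ?_ (norm_nonneg _)
  have h3 : ∏ _j ∈ Finset.univ.erase (J i), (δ / 2) ≤
      ∏ j ∈ Finset.univ.erase (J i), ‖β i - r j‖ :=
    Finset.prod_le_prod (fun _ _ => by positivity) fun j hj => h2 j (Finset.ne_of_mem_erase hj)
  rw [Finset.prod_const, Finset.card_erase_of_mem (Finset.mem_univ _), Finset.card_univ,
    Fintype.card_fin] at h3
  exact h3

section Quartic

variable (A B : ℂ[X])

/-- The quartic of the `3`-division polynomial. -/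
noncomputable def qF (Y : ℂ[X]) : ℂ[X] := Y ^ 4 - 6 * A * Y ^ 2 - 8 * B * Y - 3 * A ^ 2

theorem qF_add (Y h : ℂ[X]) : qF A B (Y + h) = qF A B Y +
    (4 * Y ^ 3 - 12 * A * Y - 8 * B) * h + h ^ 2 * (6 * Y ^ 2 - 6 * A + 4 * Y * h + h ^ 2) := by
  unfold qF
  ring

/-- Newton's iteration. -/
theorem exists_newton {ξ : ℂ}
    (h0 : ξ ^ 4 - 6 * A.eval 0 * ξ ^ 2 - 8 * B.eval 0 * ξ - 3 * A.eval 0 ^ 2 = 0)
    (h1 : 4 * ξ ^ 3 - 12 * A.eval 0 * ξ - 8 * B.eval 0 ≠ 0) (n : ℕ) :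
    ∃ Y : ℂ[X], Y.natDegree ≤ n ∧ Y.eval 0 = ξ ∧ X ^ (n + 1) ∣ qF A B Y := by
  induction n with
  | zero =>
    refine ⟨C ξ, by rw [natDegree_C], eval_C, ?_⟩
    rw [zero_add, pow_one, X_dvd_iff, coeff_zero_eq_eval_zero, qF]
    simp only [eval_sub, eval_mul, eval_pow, eval_C, eval_ofNat]
    exact h0
  | succ n ih =>
    obtain ⟨Y, hY, hY0, G, hG⟩ := ih
    let c : ℂ := - G.eval 0 / (4 * ξ ^ 3 - 12 * A.eval 0 * ξ - 8 * B.eval 0)
    refine ⟨Y + C c * X ^ (n + 1), ?_, ?_, ?_⟩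
    · refine (natDegree_add_le _ _).trans (max_le (hY.trans n.le_succ) ?_)
      exact natDegree_C_mul_X_pow_le _ _
    · rw [eval_add, eval_mul, eval_pow, eval_X, zero_pow n.succ_ne_zero, mul_zero, add_zero, hY0]
    · rw [qF_add, hG]
      have e : X ^ (n + 1) * G + (4 * Y ^ 3 - 12 * A * Y - 8 * B) * (C c * X ^ (n + 1)) +
          (C c * X ^ (n + 1)) ^ 2 * (6 * Y ^ 2 - 6 * A + 4 * Y * (C c * X ^ (n + 1)) +
            (C c * X ^ (n + 1)) ^ 2) =
          X ^ (n + 1) * (G + C c * (4 * Y ^ 3 - 12 * A * Y - 8 * B) + X ^ (n + 1) *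
            (C c ^ 2 * (6 * Y ^ 2 - 6 * A + 4 * Y * (C c * X ^ (n + 1)) +
            (C c * X ^ (n + 1)) ^ 2))) := by ring
      rw [e, pow_succ X (n + 1)]
      refine mul_dvd_mul_left _ ?_
      rw [X_dvd_iff, coeff_zero_eq_eval_zero]
      simp only [eval_add, eval_sub, eval_mul, eval_pow, eval_C, eval_X, eval_ofNat, hY0,
        zero_pow n.succ_ne_zero, zero_mul, add_zero]
      change G.eval 0 + - G.eval 0 / _ * _ = 0
      rw [div_mul_cancel₀ _ h1]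
      ring

end Quartic

/-- A root with vanishing derivative gives a degenerate curve. -/
theorem deriv_ne {α β ξ : ℂ} (hαβ : α ^ 3 ≠ β ^ 2)
    (h0 : ξ ^ 4 - 6 * α * ξ ^ 2 - 8 * β * ξ - 3 * α ^ 2 = 0) :
    4 * ξ ^ 3 - 12 * α * ξ - 8 * β ≠ 0 := by
  intro h1
  apply hαβ
  have e1 : β = (ξ ^ 3 - 3 * α * ξ) / 2 := by linear_combination -h1 / 8
  have e2 : (ξ ^ 2 - α) ^ 2 = 0 := by
    rw [e1] at h0
    linear_combination -h0 / 3
  have e3 : α = ξ ^ 2 := by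
    have := pow_eq_zero_iff (two_ne_zero) |>.mp e2
    linear_combination -this
  rw [e1, e3]
  ring

/-- Distinct approximate roots. -/
theorem exists_four {α β : ℂ} (hαβ : α ^ 3 ≠ β ^ 2) : ∃ r : Fin 4 → ℂ, Function.Injective r ∧
    ∀ i, r i ^ 4 - 6 * α * r i ^ 2 - 8 * β * r i - 3 * α ^ 2 = 0 := by
  obtain ⟨r, hr⟩ := exists_roots (-6 * α) (-8 * β) (-3 * α ^ 2)
  have hr0 : ∀ i, r i ^ 4 - 6 * α * r i ^ 2 - 8 * β * r i - 3 * α ^ 2 = 0 := by
    intro i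
    have h1 := hr (r i)
    rw [Finset.prod_eq_zero (Finset.mem_univ i) (sub_self _)] at h1
    linear_combination h1
  refine ⟨r, fun i j hij => ?_, hr0⟩
  by_contra hne
  -- the derivative vanishes at a double root
  apply deriv_ne hαβ (hr0 i)
  have h2 : ∀ Y : ℂ, ∏ k, (Y - r k) = (Y - r i) * ((Y - r i) *
      ∏ k ∈ (Finset.univ.erase i).erase j, (Y - r k)) := by
    intro Y
    rw [← Finset.mul_prod_erase Finset.univ (fun k => Y - r k) (Finset.mem_univ i),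
      ← Finset.mul_prod_erase (Finset.univ.erase i) (fun k => Y - r k)
      (Finset.mem_erase.mpr ⟨fun h => hne h.symm, Finset.mem_univ j⟩), ← hij]
  have h3 : HasDerivAt (fun Y : ℂ => Y ^ 4 + (-6 * α) * Y ^ 2 + (-8 * β) * Y + (-3 * α ^ 2))
      (4 * r i ^ 3 - 12 * α * r i - 8 * β) (r i) := by
    have e1 : HasDerivAt (fun Y : ℂ => Y ^ 4) (4 * r i ^ 3) (r i) := by
      simpa using hasDerivAt_pow 4 (r i)
    have e2 : HasDerivAt (fun Y : ℂ => Y ^ 2) (2 * r i) (r i) := by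
      simpa using hasDerivAt_pow 2 (r i)
    have e3 : HasDerivAt (fun Y : ℂ => Y) 1 (r i) := hasDerivAt_id _
    have e4 := ((e1.add (e2.const_mul (-6 * α))).add (e3.const_mul (-8 * β))).add_const (-3 * α ^ 2)
    exact e4.congr_deriv (by ring)
  have h4 : HasDerivAt (fun Y : ℂ => Y ^ 4 + (-6 * α) * Y ^ 2 + (-8 * β) * Y + (-3 * α ^ 2))
      0 (r i) := by
    have e0 : (fun Y : ℂ => Y ^ 4 + (-6 * α) * Y ^ 2 + (-8 * β) * Y + (-3 * α ^ 2)) =
        fun Y => (Y - r i) * ((Y - r i) * ∏ k ∈ (Finset.univ.erase i).erase j, (Y - r k)) :=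
      funext fun Y => (hr Y).trans (h2 Y)
    rw [e0]
    have e1 : HasDerivAt (fun Y : ℂ => Y - r i) 1 (r i) := (hasDerivAt_id _).sub_const _
    have e2 : DifferentiableAt ℂ (fun Y : ℂ => ∏ k ∈ (Finset.univ.erase i).erase j, (Y - r k))
        (r i) := by fun_prop
    have e3 := e1.mul (e1.mul e2.hasDerivAt)
    exact e3.congr_deriv (by
      change 1 * ((r i - r i) * _) + _ = (0 : ℂ)
      rw [sub_self]
      ring)
  exact h3.unique h4

open Filter Topology in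
/-- **Branches.** -/
theorem exists_branches (A B : ℂ[X]) (h : A.eval 0 ^ 3 ≠ B.eval 0 ^ 2) :
    ∃ Y : Fin 4 → ℂ[X], (∀ i, (Y i).natDegree ≤ 10) ∧ ∃ c : ℝ, ∀ᶠ t : ℕ in atTop, ∀ ξ : ℂ,
      ξ ^ 4 - 6 * A.eval ((t : ℂ)⁻¹) * ξ ^ 2 - 8 * B.eval ((t : ℂ)⁻¹) * ξ -
        3 * A.eval ((t : ℂ)⁻¹) ^ 2 = 0 →
      ∃ i, ‖ξ - (Y i).eval ((t : ℂ)⁻¹)‖ ≤ c * ‖(t : ℂ)⁻¹‖ ^ 11 := by
  obtain ⟨r, hr, hr0⟩ := exists_four h
  choose Y hY hY0 G hG using fun i => exists_newton A B (hr0 i) (deriv_ne h (hr0 i)) 10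
  obtain ⟨p, hp, hmin⟩ := Finset.exists_min_image (Finset.univ.offDiag : Finset (Fin 4 × Fin 4))
    (fun p => ‖r p.1 - r p.2‖) ⟨(0, 1), by simp⟩
  have hpne : p.1 ≠ p.2 := (Finset.mem_offDiag.mp hp).2.2
  set δ : ℝ := ‖r p.1 - r p.2‖ / 2 with hδdef
  have hδ : 0 < δ := by
    have : 0 < ‖r p.1 - r p.2‖ := norm_pos_iff.mpr (sub_ne_zero.mpr fun h => hpne (hr h))
    positivity
  have hδlt : ∀ i j, i ≠ j → δ < ‖r i - r j‖ := by
    intro i j hij
    have h1 := hmin (i, j) (Finset.mem_offDiag.mpr ⟨Finset.mem_univ _, Finset.mem_univ _, hij⟩)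
    have h2 : 2 * δ = ‖r p.1 - r p.2‖ := by rw [hδdef]; ring
    have h3 : ‖r p.1 - r p.2‖ ≤ ‖r i - r j‖ := h1
    linarith
  set g : ℝ := ∑ i, (‖(G i).eval 0‖ + 1) with hg
  have hgi : ∀ i, ‖(G i).eval 0‖ + 1 ≤ g := fun i =>
    Finset.single_le_sum (f := fun i => ‖(G i).eval 0‖ + 1) (fun i _ => by positivity)
      (Finset.mem_univ i)
  have hg0 : 0 ≤ g := Finset.sum_nonneg fun i _ => by positivity
  have hlim : Tendsto (fun t : ℕ => ((t : ℂ))⁻¹) atTop (𝓝 0) := tendsto_inv_atTop_nhds_zero_nat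
  -- conditions near zero
  have c1 : ∀ᶠ z : ℂ in 𝓝 0, ∀ i j, i ≠ j → δ < ‖(Y i).eval z - (Y j).eval z‖ := by
    rw [eventually_all]
    intro i
    rw [eventually_all]
    intro j
    by_cases hij : i = j
    · exact Eventually.of_forall fun z h => absurd hij h
    · have h1 : ContinuousAt (fun z : ℂ => ‖(Y i).eval z - (Y j).eval z‖) 0 :=
        (((Y i).continuous.sub (Y j).continuous).norm).continuousAt
      have h2 : δ < ‖(Y i).eval 0 - (Y j).eval 0‖ := by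
        rw [hY0, hY0]
        exact hδlt i j hij
      filter_upwards [h1.eventually (lt_mem_nhds h2)] with z hz _
      exact hz
  have c2 : ∀ᶠ z : ℂ in 𝓝 0, ∀ i, ‖(G i).eval z‖ < g := by
    rw [eventually_all]
    intro i
    have h1 : ContinuousAt (fun z : ℂ => ‖(G i).eval z‖) 0 := ((G i).continuous.norm).continuousAt
    have h2 : ‖(G i).eval 0‖ < g := lt_of_lt_of_le (lt_add_one _) (hgi i)
    exact h1.eventually (gt_mem_nhds h2)
  have c3 : ∀ᶠ z : ℂ in 𝓝 0, g * ‖z‖ ^ 11 < (δ / 4) ^ 4 := by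
    have h1 : ContinuousAt (fun z : ℂ => g * ‖z‖ ^ 11) 0 := by fun_prop
    have h2 : g * ‖(0 : ℂ)‖ ^ 11 < (δ / 4) ^ 4 := by
      rw [norm_zero, zero_pow (by norm_num), mul_zero]
      positivity
    exact h1.eventually (gt_mem_nhds h2)
  refine ⟨Y, hY, g / (δ / 2) ^ 3, ?_⟩
  filter_upwards [hlim.eventually c1, hlim.eventually c2, hlim.eventually c3] with t h1 h2 h3 ξ hξ
  set z : ℂ := (t : ℂ)⁻¹ with hz
  obtain ⟨r', hr'⟩ := exists_roots (-6 * A.eval z) (-8 * B.eval z) (-3 * A.eval z ^ 2)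
  have h4 : ∏ j, (ξ - r' j) = 0 := by
    rw [← hr']
    linear_combination hξ
  obtain ⟨j, -, hj⟩ := Finset.prod_eq_zero_iff.mp h4
  obtain ⟨i, hi⟩ := near_root r' (fun i => (Y i).eval z) hδ h3
    (fun i j hij => (h1 i j hij).le) (fun i => by
      have h5 := congrArg (fun P : ℂ[X] => P.eval z) (hG i)
      simp only [qF, eval_sub, eval_mul, eval_pow, eval_ofNat, eval_X] at h5
      have h6 : ∏ j, ((Y i).eval z - r' j) = z ^ 11 * (G i).eval z := by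
        rw [← hr', ← h5]
        ring
      rw [h6, norm_mul, norm_pow, mul_comm]
      exact mul_le_mul_of_nonneg_right (h2 i).le (by positivity)) j
  refine ⟨i, ?_⟩
  rw [sub_eq_zero.mp hj, norm_sub_rev]
  refine hi.trans (le_of_eq ?_)
  ring

end Fermat.Agent.SW
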