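import Mathlib

/-!
# Integral values of branches of algebraic functions: finite differences and van der Waerden
-/

set_option autoImplicit false

open Polynomial

namespace Fermat.Agent.SW

/-- The binomial polynomial. -/
noncomputable def binP (k : ℕ) : ℚ[X] := C ((k.factorial : ℚ)⁻¹) * descPochhammer ℚ k

theorem binP_eval (k s : ℕ) : (binP k).eval (s : ℚ) = (s.choose k : ℚ) := by
  rw [binP, eval_mul, eval_C, descPochhammer_eval_eq_descFactorial,
    Nat.descFactorial_eq_factorial_mul_choose, Nat.cast_mul, ← mul_assoc, inv_mul_cancel₀, one_mul]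
  exact_mod_cast k.factorial_ne_zero

theorem binP_natDegree (k : ℕ) : (binP k).natDegree ≤ k := by
  refine (natDegree_mul_le).trans ?_
  rw [natDegree_C, zero_add]
  have h := (monic_descPochhammer ℚ k)
  rw [descPochhammer_natDegree]

/-- A sequence of integers close to a polynomial of degree at most `10` is a polynomial. -/
theorem exists_poly_of_close {K : ℕ} (p : ℂ[X]) (hp : p.natDegree < 11) (y : ℕ → ℤ) {ε : ℝ}
    (hε : 2 ^ K * ε < 1) (h : ∀ s ≤ K, ‖(y s : ℂ) - p.eval (s : ℂ)‖ ≤ ε) :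
    ∃ Q : ℚ[X], Q.natDegree ≤ 10 ∧ ∀ s ≤ K, Q.eval (s : ℚ) = y s := by
  have hε0 : 0 ≤ ε := (norm_nonneg _).trans (h 0 (Nat.zero_le _))
  have hz : ∀ k, 11 ≤ k → k ≤ K → (fwdDiff 1)^[k] y 0 = 0 := by
    intro k hk hkK
    have e1 : (((fwdDiff 1)^[k] y 0 : ℤ) : ℂ) =
        ∑ j ∈ Finset.range (k + 1), ((((-1 : ℤ) ^ (k - j) * k.choose j : ℤ)) : ℂ) * (y j : ℂ) := by
      rw [fwdDiff_iter_eq_sum_shift]
      push_cast
      refine Finset.sum_congr rfl fun j _ => ?_
      simp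
    have e2 : (0 : ℂ) =
        ∑ j ∈ Finset.range (k + 1), ((((-1 : ℤ) ^ (k - j) * k.choose j : ℤ)) : ℂ) *
          p.eval (j : ℂ) := by
      have h1 := congrFun (Polynomial.fwdDiff_iter_eq_zero_of_degree_lt (P := p)
        (lt_of_lt_of_le hp hk)) (0 : ℂ)
      rw [fwdDiff_iter_eq_sum_shift] at h1
      rw [← show _ = (0 : ℂ) from h1]
      refine Finset.sum_congr rfl fun j _ => ?_
      simp
    have e3 : (((fwdDiff 1)^[k] y 0 : ℤ) : ℂ) =
        ∑ j ∈ Finset.range (k + 1), ((((-1 : ℤ) ^ (k - j) * k.choose j : ℤ)) : ℂ) *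
          ((y j : ℂ) - p.eval (j : ℂ)) := by
      rw [← sub_zero (((fwdDiff 1)^[k] y 0 : ℤ) : ℂ)]
      conv_lhs => rw [e2, e1]
      rw [← Finset.sum_sub_distrib]
      exact Finset.sum_congr rfl fun j _ => by ring
    have e4 : ‖(((fwdDiff 1)^[k] y 0 : ℤ) : ℂ)‖ ≤ 2 ^ k * ε := by
      rw [e3]
      refine (norm_sum_le _ _).trans ?_
      have h2 : ∀ j ∈ Finset.range (k + 1),
          ‖((((-1 : ℤ) ^ (k - j) * k.choose j : ℤ)) : ℂ) * ((y j : ℂ) - p.eval (j : ℂ))‖ ≤
          (k.choose j : ℝ) * ε := by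
        intro j hj
        rw [norm_mul]
        have h3 : ‖((((-1 : ℤ) ^ (k - j) * k.choose j : ℤ)) : ℂ)‖ = (k.choose j : ℝ) := by
          push_cast
          rw [norm_mul, norm_pow, norm_neg, norm_one, one_pow, one_mul]
          simp
        rw [h3]
        exact mul_le_mul_of_nonneg_left
          (h j ((Nat.lt_succ_iff.mp (Finset.mem_range.mp hj)).trans hkK)) (Nat.cast_nonneg _)
      refine (Finset.sum_le_sum h2).trans ?_
      rw [← Finset.sum_mul, ← Nat.cast_sum, Nat.sum_range_choose]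
      push_cast
      exact le_rfl
    have e5 : ‖(((fwdDiff 1)^[k] y 0 : ℤ) : ℂ)‖ < 1 := by
      refine e4.trans_lt (lt_of_le_of_lt ?_ hε)
      exact mul_le_mul_of_nonneg_right (pow_le_pow_right₀ one_le_two hkK) hε0
    rw [Complex.norm_intCast] at e5
    have e6 : |(fwdDiff 1)^[k] y 0| < 1 := by exact_mod_cast e5
    exact Int.abs_lt_one_iff.mp e6
  refine ⟨∑ k ∈ Finset.range 11, C (((fwdDiff 1)^[k] y 0 : ℤ) : ℚ) * binP k, ?_, ?_⟩
  · refine natDegree_sum_le_of_forall_le _ _ fun k hk => ?_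
    refine (natDegree_mul_le).trans ?_
    rw [natDegree_C, zero_add]
    exact (binP_natDegree k).trans (Nat.lt_succ_iff.mp (Finset.mem_range.mp hk))
  · intro s hs
    have h1 := shift_eq_sum_fwdDiff_iter 1 y s 0
    rw [zero_add, smul_eq_mul, mul_one] at h1
    rw [h1, eval_finsetSum]
    push_cast
    have h2 : ∀ k ∈ Finset.range 11, (C (((fwdDiff 1)^[k] y 0 : ℤ) : ℚ) * binP k).eval (s : ℚ) =
        (((s.choose k • (fwdDiff 1)^[k] y 0 : ℤ)) : ℚ) := by
      intro k _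
      rw [eval_mul, eval_C, binP_eval, nsmul_eq_mul, mul_comm]
      push_cast
      rfl
    rw [Finset.sum_congr rfl h2]
    -- compare the two sums
    have h4 : ∑ k ∈ Finset.range (max 11 (s + 1)), (((s.choose k • (fwdDiff 1)^[k] y 0 : ℤ)) : ℚ) =
        ∑ k ∈ Finset.range 11, (((s.choose k • (fwdDiff 1)^[k] y 0 : ℤ)) : ℚ) := by
      symm
      refine Finset.sum_subset (Finset.range_subset_range.mpr (le_max_left _ _)) fun k hk hk' => ?_
      rw [Finset.mem_range, not_lt] at hk'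
      rw [Finset.mem_range] at hk
      by_cases hks : k ≤ s
      · rw [hz k hk' (hks.trans hs)]
        simp
      · rw [Nat.choose_eq_zero_of_lt (not_le.mp hks)]
        simp
    have h5 : ∑ k ∈ Finset.range (max 11 (s + 1)), (((s.choose k • (fwdDiff 1)^[k] y 0 : ℤ)) : ℚ) =
        ∑ k ∈ Finset.range (s + 1), (((s.choose k • (fwdDiff 1)^[k] y 0 : ℤ)) : ℚ) := by
      symm
      refine Finset.sum_subset (Finset.range_subset_range.mpr (le_max_right _ _)) fun k _ hk' => ?_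
      rw [Finset.mem_range, not_lt] at hk'
      rw [Nat.choose_eq_zero_of_lt (Nat.lt_of_succ_le hk')]
      simp
    rw [← h4, h5]

/-- Integral values close to branches: there is a polynomial taking the values on a long arithmetic
progression. -/
theorem exists_poly_AP {κ : Type} [Finite κ] (P : κ → ℂ[X]) (hP : ∀ i, (P i).natDegree < 11)
    {c : ℝ} {T : ℕ} (Z : ℕ → ℤ)
    (h : ∀ t : ℕ, T ≤ t → ∃ i, ‖(Z t : ℂ) - (P i).eval (t : ℂ)‖ ≤ c / t) (K : ℕ) :
    ∃ a b : ℕ, 0 < a ∧ T ≤ b ∧ ∃ Q : ℚ[X], Q.natDegree ≤ 10 ∧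
      ∀ s ≤ K, Q.eval (s : ℚ) = Z (a * s + b) := by
  classical
  obtain ⟨T₁, hT₁⟩ := exists_nat_gt (2 ^ K * |c|)
  let T' := max (max T T₁) 1
  have hT'T : T ≤ T' := (le_max_left _ _).trans (le_max_left _ _)
  have hT'1 : T₁ ≤ T' := (le_max_right T T₁).trans (le_max_left _ _)
  have hT'0 : (0 : ℝ) < T' := by exact_mod_cast (le_max_right (max T T₁) 1)
  have : Nonempty κ := ⟨(h T le_rfl).choose⟩
  choose! col hcol using h
  obtain ⟨a, ha, b, i, hi⟩ := Combinatorics.exists_mono_homothetic_copy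
    (Finset.range (K + 1)) (fun n : ℕ => col (n + T'))
  have hε : 2 ^ K * (|c| / T') < 1 := by
    rw [← mul_div_assoc, div_lt_one hT'0]
    exact hT₁.trans_le (by exact_mod_cast hT'1)
  have hbnd : ∀ s ≤ K, ‖((fun s => Z (a * s + (b + T'))) s : ℂ) -
      ((P i).comp (C (a : ℂ) * X + C ((b + T' : ℕ) : ℂ))).eval (s : ℂ)‖ ≤ |c| / T' := by
    intro s hs
    have h1 := hi s (Finset.mem_range.mpr (Nat.lt_succ_of_le hs))
    have e1 : a • s + b + T' = a * s + (b + T') := by rw [smul_eq_mul, add_assoc]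
    rw [e1] at h1
    have ht : T' ≤ a * s + (b + T') := by omega
    have h2 := hcol (a * s + (b + T')) (hT'T.trans ht)
    rw [h1] at h2
    rw [eval_comp, eval_add, eval_mul, eval_C, eval_X, eval_C]
    have e2 : (a : ℂ) * (s : ℂ) + ((b + T' : ℕ) : ℂ) = ((a * s + (b + T') : ℕ) : ℂ) := by
      push_cast; ring
    rw [e2]
    refine h2.trans ?_
    have h3 : (T' : ℝ) ≤ ((a * s + (b + T') : ℕ) : ℝ) := by exact_mod_cast ht
    calc c / ((a * s + (b + T') : ℕ) : ℝ) ≤ |c| / ((a * s + (b + T') : ℕ) : ℝ) :=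
          div_le_div_of_nonneg_right (le_abs_self c) (Nat.cast_nonneg _)
      _ ≤ |c| / T' := div_le_div_of_nonneg_left (abs_nonneg c) hT'0 h3
  obtain ⟨Q, hQ, hQ'⟩ := exists_poly_of_close _ (by
    have h1 := natDegree_comp_le (p := P i) (q := C (a : ℂ) * X + C ((b + T' : ℕ) : ℂ))
    have h2 : (C (a : ℂ) * X + C ((b + T' : ℕ) : ℂ)).natDegree ≤ 1 := natDegree_linear_le
    have h3 : (P i).natDegree * (C (a : ℂ) * X + C ((b + T' : ℕ) : ℂ)).natDegree ≤
        (P i).natDegree := by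
      calc _ ≤ (P i).natDegree * 1 := Nat.mul_le_mul_left _ h2
        _ = _ := mul_one _
    exact (h1.trans h3).trans_lt (hP i)) (fun s => Z (a * s + (b + T'))) hε hbnd
  exact ⟨a, b + T', ha, by omega, Q, hQ, hQ'⟩

end Fermat.Agent.SW
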