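import Fermat.Agent.SW.Kill
import Fermat.Agent.SW.Diff
import Fermat.Agent.SW.Approx

/-!
# Some member of the family has no integral root of the quartic
-/

set_option autoImplicit false
set_option linter.unusedVariables false

noncomputable section

namespace Fermat.Agent.SW

open Polynomial Filter

section ring

variable {R : Type*} [CommRing R]

theorem p4_homog (a b k l m : R) : p4 a b (k * l) (k * m) = k ^ 20 * p4 a b l m := by
  unfold p4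
  ring

theorem p6_homog (a b k l m : R) : p6 a b (k * l) (k * m) = k ^ 30 * p6 a b l m := by
  unfold p6
  ring

theorem pD_zero (a b m : R) : pD a b 0 m = d12 a b * m ^ 12 := by
  unfold pD
  ring

end ring

theorem rel_p (c4 c6 l m : ℂ) (h : c4 ^ 3 ≠ c6 ^ 2) :
    p4 c4 c6 l m ^ 3 - p6 c4 c6 l m ^ 2 = (c4 ^ 3 - c6 ^ 2) * pD c4 c6 l m ^ 5 := by
  obtain ⟨x, y, hx, hy⟩ := exists_v (by norm_num) (by norm_num) c4 c6 h
  have h4 := c4F_w x y l m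
  have h6 := c6F_w x y l m
  have hf := fF_w x y l m
  have h0 := rel x y
  rw [hx, hy] at h4 h6 hf h0
  rw [← h4, ← h6, rel, hf, h0]
  ring

theorem sq_eleven (n m : ℤ) (h : n ^ 2 = 11 * m ^ 2) : m = 0 := by
  by_contra hm
  have hm' : (m : ℝ) ≠ 0 := by exact_mod_cast hm
  have h1 : (|(n : ℝ)| / |(m : ℝ)|) ^ 2 = 11 := by
    rw [div_pow, sq_abs, sq_abs, div_eq_iff (pow_ne_zero 2 hm')]
    exact_mod_cast h
  have h2 : Real.sqrt 11 = |(n : ℝ)| / |(m : ℝ)| := by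
    rw [← h1, Real.sqrt_sq (by positivity)]
  have h3 : Irrational (Real.sqrt ((11 : ℕ) : ℝ)) :=
    Nat.Prime.irrational_sqrt (by norm_num)
  apply h3
  refine ⟨|(n : ℚ)| / |(m : ℚ)|, ?_⟩
  push_cast
  rw [h2]

theorem d12_ne (c4 c6 : ℤ) (h : c4 ^ 3 ≠ c6 ^ 2) :
    102400 * c6 ^ 4 - 193536 * c4 ^ 3 * c6 ^ 2 + 91125 * c4 ^ 6 ≠ 0 := by
  intro h0
  have h1 : (204800 * c6 ^ 2 - 193536 * c4 ^ 3) ^ 2 = 11 * (3456 * c4 ^ 3) ^ 2 := by
    linear_combination 409600 * h0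
  have h2 := sq_eleven _ _ h1
  rw [h2] at h1
  have h3 : 204800 * c6 ^ 2 - 193536 * c4 ^ 3 = 0 := by
    rw [zero_pow (by norm_num), mul_zero] at h1
    exact pow_eq_zero_iff (by norm_num) |>.1 h1
  apply h
  omega

theorem cast_p4 (c4 c6 l m : ℤ) : ((p4 c4 c6 l m : ℤ) : ℂ) = p4 (c4 : ℂ) c6 l m := by
  simpa using map_p4 (Int.castRingHom ℂ) c4 c6 l m

theorem cast_p6 (c4 c6 l m : ℤ) : ((p6 c4 c6 l m : ℤ) : ℂ) = p6 (c4 : ℂ) c6 l m := by
  simpa using map_p6 (Int.castRingHom ℂ) c4 c6 l m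

theorem eval_reflect_ten (Y : ℂ[X]) (hY : Y.natDegree ≤ 10) {t : ℂ} (ht : t ≠ 0) :
    (Y.reflect 10).eval t = t ^ 10 * Y.eval t⁻¹ := by
  have hinv : Invertible (t⁻¹) := invertibleOfNonzero (inv_ne_zero ht)
  have h := eval₂_reflect_mul_pow (RingHom.id ℂ) (t⁻¹) 10 Y hY
  rw [invOf_eq_inv, inv_inv] at h
  simp only [eval₂_id] at h
  rw [← h, mul_comm, mul_assoc, ← mul_pow, inv_mul_cancel₀ ht, one_pow, mul_one]

theorem natDegree_reflect_ten (Y : ℂ[X]) (hY : Y.natDegree ≤ 10) :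
    (Y.reflect 10).natDegree < 11 := by
  have := natDegree_reflect_le (N := 10) (p := Y)
  omega

/-- Some member of the family has no integral root. -/
theorem exists_no_root (c4 c6 : ℤ) (h : c4 ^ 3 ≠ c6 ^ 2) {M : ℕ} (hM : 0 < M) :
    ∃ t : ℕ, ∀ z : ℤ, z ^ 4 - 6 * p4 c4 c6 1 (M * t) * z ^ 2 - 8 * p6 c4 c6 1 (M * t) * z -
      3 * p4 c4 c6 1 (M * t) ^ 2 ≠ 0 := by
  by_contra hcon
  push Not at hcon
  choose Z hZ using hcon
  have hne : (c4 : ℂ) ^ 3 ≠ (c6 : ℂ) ^ 2 := by exact_mod_cast h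
  have hrat : 102400 * (c6 : ℂ) ^ 4 - 193536 * (c4 : ℂ) ^ 3 * (c6 : ℂ) ^ 2 +
      91125 * (c4 : ℂ) ^ 6 ≠ 0 := by exact_mod_cast d12_ne c4 c6 h
  have hM0 : (M : ℂ) ≠ 0 := by exact_mod_cast hM.ne'
  have hZC : ∀ t : ℕ, (Z t : ℂ) ^ 4 - 6 * p4 (c4 : ℂ) c6 1 (M * t) * (Z t : ℂ) ^ 2 -
      8 * p6 (c4 : ℂ) c6 1 (M * t) * (Z t : ℂ) - 3 * p4 (c4 : ℂ) c6 1 (M * t) ^ 2 = 0 := by
    intro t
    have h1 := congrArg (fun z : ℤ => (z : ℂ)) (hZ t)
    push_cast at h1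
    rw [cast_p4, cast_p6] at h1
    push_cast at h1
    exact h1
  obtain ⟨A, hA⟩ : ∃ A : ℂ[X], ∀ s : ℂ, A.eval s = p4 (c4 : ℂ) c6 s M := by
    refine ⟨p4 (C (c4 : ℂ)) (C (c6 : ℂ)) X (C (M : ℂ)), fun s => ?_⟩
    have := map_p4 (evalRingHom s) (C (c4 : ℂ)) (C (c6 : ℂ)) X (C (M : ℂ))
    simpa only [coe_evalRingHom, eval_C, eval_X] using this
  obtain ⟨B, hB⟩ : ∃ B : ℂ[X], ∀ s : ℂ, B.eval s = p6 (c4 : ℂ) c6 s M := by
    refine ⟨p6 (C (c4 : ℂ)) (C (c6 : ℂ)) X (C (M : ℂ)), fun s => ?_⟩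
    have := map_p6 (evalRingHom s) (C (c4 : ℂ)) (C (c6 : ℂ)) X (C (M : ℂ))
    simpa only [coe_evalRingHom, eval_C, eval_X] using this
  have h0 : A.eval 0 ^ 3 ≠ B.eval 0 ^ 2 := by
    rw [hA, hB]
    intro he
    have h1 := rel_p (c4 : ℂ) c6 0 M hne
    rw [he, sub_self, pD_zero] at h1
    exact mul_ne_zero (sub_ne_zero.2 hne)
      (pow_ne_zero 5 (mul_ne_zero hrat (pow_ne_zero 12 hM0))) h1.symm
  obtain ⟨Y, hY, c, hc⟩ := exists_branches A B h0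
  obtain ⟨T, hT⟩ := eventually_atTop.1 hc
  have key : ∀ t : ℕ, max T 1 ≤ t →
      ∃ i, ‖(Z t : ℂ) - ((Y i).reflect 10).eval (t : ℂ)‖ ≤ c / t := by
    intro t ht
    have ht1 : 1 ≤ t := (le_max_right _ _).trans ht
    have ht0 : (t : ℂ) ≠ 0 := by
      have : t ≠ 0 := by omega
      exact_mod_cast this
    have htr : (0 : ℝ) < t := by exact_mod_cast ht1
    have e4 : p4 (c4 : ℂ) c6 1 (M * t) = (t : ℂ) ^ 20 * p4 (c4 : ℂ) c6 ((t : ℂ)⁻¹) M := by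
      rw [← p4_homog, mul_inv_cancel₀ ht0, mul_comm (t : ℂ)]
    have e6 : p6 (c4 : ℂ) c6 1 (M * t) = (t : ℂ) ^ 30 * p6 (c4 : ℂ) c6 ((t : ℂ)⁻¹) M := by
      rw [← p6_homog, mul_inv_cancel₀ ht0, mul_comm (t : ℂ)]
    have hq := hZC t
    rw [e4, e6] at hq
    obtain ⟨i, hi⟩ := hT t ((le_max_left _ _).trans ht) ((Z t : ℂ) / (t : ℂ) ^ 10) (by
      rw [hA, hB]
      have h1 : (t : ℂ) ^ 10 ≠ 0 := pow_ne_zero _ ht0
      generalize p4 (c4 : ℂ) c6 ((t : ℂ)⁻¹) M = a at hq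
      generalize p6 (c4 : ℂ) c6 ((t : ℂ)⁻¹) M = b at hq
      have h2 : ((Z t : ℂ) / (t : ℂ) ^ 10) ^ 4 - 6 * a * ((Z t : ℂ) / (t : ℂ) ^ 10) ^ 2 -
          8 * b * ((Z t : ℂ) / (t : ℂ) ^ 10) - 3 * a ^ 2 =
          ((Z t : ℂ) ^ 4 - 6 * ((t : ℂ) ^ 20 * a) * (Z t : ℂ) ^ 2 -
            8 * ((t : ℂ) ^ 30 * b) * (Z t : ℂ) - 3 * ((t : ℂ) ^ 20 * a) ^ 2) /
            (t : ℂ) ^ 40 := by
        field_simp
      rw [h2, hq, zero_div])
    refine ⟨i, ?_⟩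
    rw [eval_reflect_ten _ (hY i) ht0]
    have h2 : (Z t : ℂ) - (t : ℂ) ^ 10 * (Y i).eval ((t : ℂ)⁻¹) =
        (t : ℂ) ^ 10 * ((Z t : ℂ) / (t : ℂ) ^ 10 - (Y i).eval ((t : ℂ)⁻¹)) := by
      rw [mul_sub, mul_div_cancel₀ _ (pow_ne_zero 10 ht0)]
    rw [h2, norm_mul, norm_pow, Complex.norm_natCast]
    refine (mul_le_mul_of_nonneg_left hi (by positivity)).trans (le_of_eq ?_)
    rw [norm_inv, Complex.norm_natCast]
    field_simp
  obtain ⟨a, b, ha, hb, Q, hQd, hQ⟩ := exists_poly_AP (fun i => (Y i).reflect 10)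
    (fun i => natDegree_reflect_ten _ (hY i)) Z key 50
  have hMa : (M : ℂ) * a ≠ 0 := mul_ne_zero hM0 (by exact_mod_cast ha.ne')
  have hL : (C ((M : ℂ) * a) * X + C ((M : ℂ) * b) : ℂ[X]).natDegree ≤ 1 := by
    compute_degree
  have hc4 : p4 (C (c4 : ℂ)) (C (c6 : ℂ)) 1 (C ((M : ℂ) * a) * X + C ((M : ℂ) * b)) =
      (p4 (C (c4 : ℂ)) (C (c6 : ℂ)) 1 X).comp (C ((M : ℂ) * a) * X + C ((M : ℂ) * b)) := by
    have := map_p4 (compRingHom (C ((M : ℂ) * a) * X + C ((M : ℂ) * b))) (C (c4 : ℂ))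
      (C (c6 : ℂ)) 1 X
    simp only [coe_compRingHom_apply, C_comp, one_comp, X_comp] at this
    exact this.symm
  have hc6 : p6 (C (c4 : ℂ)) (C (c6 : ℂ)) 1 (C ((M : ℂ) * a) * X + C ((M : ℂ) * b)) =
      (p6 (C (c4 : ℂ)) (C (c6 : ℂ)) 1 X).comp (C ((M : ℂ) * a) * X + C ((M : ℂ) * b)) := by
    have := map_p6 (compRingHom (C ((M : ℂ) * a) * X + C ((M : ℂ) * b))) (C (c4 : ℂ))
      (C (c6 : ℂ)) 1 X
    simp only [coe_compRingHom_apply, C_comp, one_comp, X_comp] at this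
    exact this.symm
  refine no_sq_identity (c4 : ℂ) c6 hne hrat hMa (b := (M : ℂ) * b)
    (Q.map (algebraMap ℚ ℂ)) ?_
  rw [hc4, hc6]
  have hd4 : ((p4 (C (c4 : ℂ)) (C (c6 : ℂ)) 1 X).comp
      (C ((M : ℂ) * a) * X + C ((M : ℂ) * b))).natDegree ≤ 20 :=
    natDegree_comp_le.trans (by
      have := Nat.mul_le_mul (natDegree_p4_le (c4 : ℂ) c6) hL
      simpa using this)
  have hd6 : ((p6 (C (c4 : ℂ)) (C (c6 : ℂ)) 1 X).comp
      (C ((M : ℂ) * a) * X + C ((M : ℂ) * b))).natDegree ≤ 30 :=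
    natDegree_comp_le.trans (by
      have := Nat.mul_le_mul (natDegree_p6_le (c4 : ℂ) c6) hL
      simpa using this)
  have hdQ : (Q.map (algebraMap ℚ ℂ)).natDegree ≤ 10 := natDegree_map_le.trans hQd
  have hev : ∀ s : ℕ, s ≤ 50 →
      (Q.map (algebraMap ℚ ℂ)).eval (s : ℂ) = (Z (a * s + b) : ℂ) := by
    intro s hs
    have h1 := congrArg (algebraMap ℚ ℂ) (hQ s hs)
    rw [← eval_map_apply] at h1
    simpa using h1
  have he4 : ∀ s : ℕ, ((p4 (C (c4 : ℂ)) (C (c6 : ℂ)) 1 X).comp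
      (C ((M : ℂ) * a) * X + C ((M : ℂ) * b))).eval (s : ℂ) =
      p4 (c4 : ℂ) c6 1 (M * (a * s + b : ℕ)) := by
    intro s
    rw [eval_comp, eval_p4_one]
    congr 1
    simp only [eval_add, eval_mul, eval_C, eval_X]
    push_cast
    ring
  have he6 : ∀ s : ℕ, ((p6 (C (c4 : ℂ)) (C (c6 : ℂ)) 1 X).comp
      (C ((M : ℂ) * a) * X + C ((M : ℂ) * b))).eval (s : ℂ) =
      p6 (c4 : ℂ) c6 1 (M * (a * s + b : ℕ)) := by
    intro s
    rw [eval_comp, eval_p6_one]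
    congr 1
    simp only [eval_add, eval_mul, eval_C, eval_X]
    push_cast
    ring
  generalize (p4 (C (c4 : ℂ)) (C (c6 : ℂ)) 1 X).comp
      (C ((M : ℂ) * a) * X + C ((M : ℂ) * b)) = A' at hd4 he4 ⊢
  generalize (p6 (C (c4 : ℂ)) (C (c6 : ℂ)) 1 X).comp
      (C ((M : ℂ) * a) * X + C ((M : ℂ) * b)) = B' at hd6 he6 ⊢
  generalize Q.map (algebraMap ℚ ℂ) = Q' at hdQ hev ⊢
  refine eq_zero_of_natDegree_lt_card_of_eval_eq_zero _
    (f := fun s : Fin 51 => ((s : ℕ) : ℂ)) ?_ ?_ ?_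
  · intro s s' hs
    exact Fin.ext (Nat.cast_injective (R := ℂ) hs)
  · intro s
    have h1 := hZC (a * s + b)
    simp only [eval_sub, eval_mul, eval_pow, eval_ofNat, he4, he6, hev s (by omega)]
    exact h1
  · have e1 : (Q' ^ 4).natDegree ≤ 40 := by
      refine natDegree_pow_le.trans ?_
      omega
    have e2 : (6 * A' * Q' ^ 2).natDegree ≤ 40 := by
      refine natDegree_mul_le.trans ?_
      have h1 : (6 * A').natDegree ≤ 20 := by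
        refine natDegree_mul_le.trans ?_
        have : (6 : ℂ[X]).natDegree = 0 := natDegree_ofNat 6
        omega
      have h2 : (Q' ^ 2).natDegree ≤ 20 := by
        refine natDegree_pow_le.trans ?_
        omega
      omega
    have e3 : (8 * B' * Q').natDegree ≤ 40 := by
      refine natDegree_mul_le.trans ?_
      have h1 : (8 * B').natDegree ≤ 30 := by
        refine natDegree_mul_le.trans ?_
        have : (8 : ℂ[X]).natDegree = 0 := natDegree_ofNat 8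
        omega
      omega
    have e4 : (3 * A' ^ 2).natDegree ≤ 40 := by
      refine natDegree_mul_le.trans ?_
      have : (3 : ℂ[X]).natDegree = 0 := natDegree_ofNat 3
      have h2 : (A' ^ 2).natDegree ≤ 40 := by
        refine natDegree_pow_le.trans ?_
        omega
      omega
    have h1 := natDegree_sub_le (Q' ^ 4 - 6 * A' * Q' ^ 2 - 8 * B' * Q') (3 * A' ^ 2)
    have h2 := natDegree_sub_le (Q' ^ 4 - 6 * A' * Q' ^ 2) (8 * B' * Q')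
    have h3 := natDegree_sub_le (Q' ^ 4) (6 * A' * Q' ^ 2)
    rw [Fintype.card_fin]
    omega

end Fermat.Agent.SW
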