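import Fermat.Prelude.Def_FLTPrelim_Modularity
import Fermat.Prelude.Def_FLTPrelim_ModularRep
import Fermat.Agent.X015.Galois

/-!
# Reducible mod-3 representation gives an integral root of the quartic (S52, part (c1))
-/

set_option autoImplicit false
open WeierstrassCurve WeierstrassCurve.Affine WeierstrassCurve.Affine.Point

namespace Fermat.Agent.SW

open Polynomial in
theorem int_root {a b c : ℤ} {ξ : ℚ} (h : ξ ^ 4 - 6 * (a : ℚ) * ξ ^ 2 - 8 * b * ξ - c = 0) :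
    ∃ z : ℤ, (z : ℚ) = ξ := by
  have hm : (X ^ 4 - C (6 * a) * X ^ 2 - C (8 * b) * X - C c : ℤ[X]).Monic := by
    monicity!
  have hi : IsIntegral ℤ ξ := by
    refine ⟨_, hm, ?_⟩
    simp only [eval₂_sub, eval₂_mul, eval₂_pow, eval₂_X, eval₂_C]
    simpa using h
  obtain ⟨z, hz⟩ := IsIntegrallyClosed.isIntegral_iff.mp hi
  exact ⟨z, by simpa using hz⟩

theorem exists_root_of_reducible (W : WeierstrassCurve ℤ) (hΔ : W.Δ ≠ 0)
    (h : ¬ W.ModRepIsIrreducible 3) :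
    ∃ z : ℤ, z ^ 4 - 6 * W.c₄ * z ^ 2 - 8 * W.c₆ * z - 3 * W.c₄ ^ 2 = 0 := by
  have hΔ' : (W.map (Int.castRingHom ℚ)).Δ ≠ 0 := by
    rw [WeierstrassCurve.map_Δ]
    simpa using hΔ
  have e4 : (W.map (Int.castRingHom ℚ)).c₄ = (W.c₄ : ℚ) := by
    rw [WeierstrassCurve.map_c₄]; rfl
  have e6 : (W.map (Int.castRingHom ℚ)).c₆ = (W.c₆ : ℚ) := by
    rw [WeierstrassCurve.map_c₆]; rfl
  obtain ⟨ξ, hξ⟩ := Fermat.Agent.X015.three_reducible _ hΔ' h
  rw [Fermat.Agent.X015.q3, e4, e6] at hξ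
  obtain ⟨z, rfl⟩ := int_root (a := W.c₄) (b := W.c₆) (c := 3 * W.c₄ ^ 2) (ξ := ξ) (by
    push_cast; exact hξ)
  exact ⟨z, by exact_mod_cast hξ⟩

end Fermat.Agent.SW
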