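import Fermat.Agent.TF.Ico

/-!
# The icosahedral forms take all values `(c₄, c₆)` with `c₄³ ≠ c₆²`
-/

set_option autoImplicit false

namespace Fermat.Agent.SW

open Polynomial Fermat.Agent.TF

section forms

variable {R : Type*} [CommRing R]

theorem ico_hF_smul (r x y : R) : TF.hF (r * x) (r * y) = r ^ 20 * TF.hF x y := by
  unfold TF.hF
  ring

theorem ico_tF_smul (r x y : R) : TF.tF (r * x) (r * y) = r ^ 30 * TF.tF x y := by
  unfold TF.tF
  ring

theorem ico_fF_smul (r x y : R) : TF.fF (r * x) (r * y) = r ^ 12 * TF.fF x y := by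
  unfold TF.fF
  ring

end forms

section field

variable {K : Type*} [Field K]

/-- `fF` and `hF` have no common zero, if `5 ≠ 0`. -/
theorem ico_zero_of_fF_hF (h5 : (5 : K) ≠ 0) {x y : K} (hf : TF.fF x y = 0)
    (hh : TF.hF x y = 0) : x = 0 ∧ y = 0 := by
  by_cases hx : x = 0
  · subst hx
    refine ⟨rfl, ?_⟩
    have : y ^ 20 = 0 := by
      simpa [TF.hF] using hh
    exact pow_eq_zero_iff (by norm_num) |>.1 this
  by_cases hy : y = 0
  · subst hy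
    refine ⟨?_, rfl⟩
    have : x ^ 20 = 0 := by
      simpa [TF.hF] using hh
    exact pow_eq_zero_iff (by norm_num) |>.1 this
  exfalso
  have h1 : (x ^ 5) ^ 2 - 11 * x ^ 5 * y ^ 5 - (y ^ 5) ^ 2 = 0 := by
    have h2 : x * y * ((x ^ 5) ^ 2 - 11 * x ^ 5 * y ^ 5 - (y ^ 5) ^ 2) = 0 := by
      rw [← hf]
      unfold TF.fF
      ring
    rcases mul_eq_zero.1 h2 with h3 | h3
    · rcases mul_eq_zero.1 h3 with h4 | h4
      · exact absurd h4 hx
      · exact absurd h4 hy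
    · exact h3
  have h2 : (5 : K) ^ 5 * (x ^ 5) ^ 2 * (y ^ 5) ^ 2 = 0 := by
    have h3 : TF.hF x y = (5 : K) ^ 5 * (x ^ 5) ^ 2 * (y ^ 5) ^ 2 +
        ((x ^ 5) ^ 2 - 11 * x ^ 5 * y ^ 5 - (y ^ 5) ^ 2) *
        ((x ^ 5) ^ 2 + 239 * x ^ 5 * y ^ 5 - (y ^ 5) ^ 2) := by
      unfold TF.hF
      ring
    rw [h1, zero_mul, add_zero] at h3
    rw [← h3, hh]
  exact (mul_ne_zero (mul_ne_zero (pow_ne_zero _ h5) (pow_ne_zero _ (pow_ne_zero _ hx)))
    (pow_ne_zero _ (pow_ne_zero _ hy))) h2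

/-- `hF` and `tF` have no common zero, if `30 ≠ 0`. -/
theorem ico_zero_of_hF_tF (h5 : (5 : K) ≠ 0) (h1728 : (1728 : K) ≠ 0) {x y : K}
    (hh : TF.hF x y = 0) (ht : TF.tF x y = 0) : x = 0 ∧ y = 0 := by
  refine ico_zero_of_fF_hF h5 ?_ hh
  have h := TF.syz x y
  rw [hh, ht] at h
  have h2 : (1728 : K) * TF.fF x y ^ 5 = 0 := by
    rw [← h]
    ring
  rcases mul_eq_zero.1 h2 with h3 | h3
  · exact absurd h3 h1728
  · exact pow_eq_zero_iff (by norm_num) |>.1 h3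

variable [IsAlgClosed K]

/-- the icosahedral forms take all values `(c₄, c₆)` with `c₄³ ≠ c₆²` -/
theorem exists_ico (h5 : (5 : K) ≠ 0) (h1728 : (1728 : K) ≠ 0) (c4 c6 : K)
    (h : c4 ^ 3 ≠ c6 ^ 2) : ∃ x y : K, TF.hF x y = c4 ∧ TF.tF x y = c6 := by
  set D : K := (c4 ^ 3 - c6 ^ 2) / 1728 with hD
  have hD0 : D ≠ 0 := div_ne_zero (sub_ne_zero.2 h) h1728
  have hD1 : 1728 * D = c4 ^ 3 - c6 ^ 2 := by
    rw [hD]
    field_simp
  -- the polynomial
  obtain ⟨z, hz⟩ : ∃ z : K, D * TF.hF z 1 ^ 3 - c4 ^ 3 * TF.fF z 1 ^ 5 = 0 := by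
    have hdeg : (C D * TF.hF (X : K[X]) 1 ^ 3 - C (c4 ^ 3) * TF.fF (X : K[X]) 1 ^ 5).natDegree
        = 60 := by
      unfold TF.hF TF.fF
      compute_degree!
    obtain ⟨z, hz⟩ := IsAlgClosed.exists_root
      (C D * TF.hF (X : K[X]) 1 ^ 3 - C (c4 ^ 3) * TF.fF (X : K[X]) 1 ^ 5) (by
        intro h0
        have h1 := Polynomial.natDegree_le_of_degree_le (n := 0) (le_of_eq h0)
        omega)
    refine ⟨z, ?_⟩
    have := hz
    rw [IsRoot.def] at this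
    rw [← this]
    simp [TF.hF, TF.fF]
  have hf0 : TF.fF z 1 ≠ 0 := by
    intro hf
    have hh : TF.hF z 1 = 0 := by
      rw [hf] at hz
      have h2 : D * TF.hF z 1 ^ 3 = 0 := by
        rw [← hz]
        ring
      rcases mul_eq_zero.1 h2 with h3 | h3
      · exact absurd h3 hD0
      · exact pow_eq_zero_iff (by norm_num) |>.1 h3
    exact one_ne_zero (ico_zero_of_fF_hF h5 hf hh).2
  obtain ⟨r, hr⟩ := IsAlgClosed.exists_pow_nat_eq (D / TF.fF z 1 ^ 5) (n := 60) (by norm_num)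
  have hf5 : TF.fF z 1 ^ 5 ≠ 0 := pow_ne_zero _ hf0
  have e1 : TF.fF (r * z) (r * 1) ^ 5 = D := by
    rw [ico_fF_smul, mul_pow, ← pow_mul, hr]
    field_simp
  have e2 : TF.hF (r * z) (r * 1) ^ 3 = c4 ^ 3 := by
    rw [ico_hF_smul, mul_pow, ← pow_mul, hr]
    field_simp
    linear_combination hz
  have e3 : TF.tF (r * z) (r * 1) ^ 2 = c6 ^ 2 := by
    have h := TF.syz (r * z) (r * 1)
    rw [e1, e2] at h
    linear_combination -hD1 - h
  -- the correcting scalar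
  obtain ⟨w, hw3, hw⟩ : ∃ w : K, w ^ 3 = 1 ∧ TF.hF (r * z) (r * 1) = w * c4 := by
    by_cases hc : c4 = 0
    · refine ⟨1, one_pow _, ?_⟩
      rw [hc, zero_pow (by norm_num)] at e2
      rw [pow_eq_zero_iff (by norm_num)] at e2
      rw [e2, hc, mul_zero]
    · refine ⟨TF.hF (r * z) (r * 1) / c4, ?_, ?_⟩
      · rw [div_pow, e2, div_self (pow_ne_zero _ hc)]
      · rw [div_mul_cancel₀ _ hc]
  obtain ⟨e, he2, he⟩ : ∃ e : K, e ^ 2 = 1 ∧ TF.tF (r * z) (r * 1) = e * c6 := by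
    by_cases hc : c6 = 0
    · refine ⟨1, one_pow _, ?_⟩
      rw [hc, zero_pow (by norm_num)] at e3
      rw [pow_eq_zero_iff (by norm_num)] at e3
      rw [e3, hc, mul_zero]
    · refine ⟨TF.tF (r * z) (r * 1) / c6, ?_, ?_⟩
      · rw [div_pow, e3, div_self (pow_ne_zero _ hc)]
      · rw [div_mul_cancel₀ _ hc]
  obtain ⟨s, hs⟩ := IsAlgClosed.exists_pow_nat_eq (e * w) (n := 10) (by norm_num)
  refine ⟨s * (r * z), s * (r * 1), ?_, ?_⟩
  · rw [ico_hF_smul, hw]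
    have : s ^ 20 = (e * w) ^ 2 := by rw [← hs]; ring
    rw [this]
    linear_combination c4 * (e ^ 2) * hw3 + c4 * he2
  · rw [ico_tF_smul, he]
    have : s ^ 30 = (e * w) ^ 3 := by rw [← hs]; ring
    rw [this]
    linear_combination c6 * (e ^ 4) * hw3 + c6 * (e ^ 2 + 1) * he2

end field

end Fermat.Agent.SW
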