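import Mathlib
import Fermat.Prelude.Def_FLTPrelim_Modularity

/-!
# An integral model with prescribed `c₄, c₆` close to those of `W` (S52, part (b1)+(b2))
-/

set_option autoImplicit false

namespace Fermat.Agent.SW

open WeierstrassCurve

/-- The model with the same `a₁, a₂, a₃` and `c₄ = c₄(W) + 1728 K u`, `c₆ = c₆(W) + 1728 K v`. -/
def newModel (W : WeierstrassCurve ℤ) (K u v : ℤ) : WeierstrassCurve ℤ :=
  { a₁ := W.a₁, a₂ := W.a₂, a₃ := W.a₃, a₄ := W.a₄ - 36 * K * u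
    a₆ := W.a₆ - 3 * W.b₂ * K * u - 2 * K * v }

theorem newModel_c₄ (W : WeierstrassCurve ℤ) (K u v : ℤ) :
    (newModel W K u v).c₄ = W.c₄ + 1728 * K * u := by
  simp only [newModel, WeierstrassCurve.c₄, WeierstrassCurve.b₂, WeierstrassCurve.b₄]
  ring

theorem newModel_c₆ (W : WeierstrassCurve ℤ) (K u v : ℤ) :
    (newModel W K u v).c₆ = W.c₆ + 1728 * K * v := by
  simp only [newModel, WeierstrassCurve.c₆, WeierstrassCurve.b₂, WeierstrassCurve.b₄,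
    WeierstrassCurve.b₆]
  ring

theorem newModel_Δ (W : WeierstrassCurve ℤ) (K u v : ℤ) :
    (newModel W K u v).Δ = W.Δ + K * (3 * W.c₄ ^ 2 * u + 3 * W.c₄ * (1728 * K * u ^ 2)
      + 1728 ^ 2 * K ^ 2 * u ^ 3 - 2 * W.c₆ * v - 1728 * K * v ^ 2) := by
  have h1 := (newModel W K u v).c_relation
  have h2 := W.c_relation
  rw [newModel_c₄, newModel_c₆] at h1
  have h3 : (1728 : ℤ) * (newModel W K u v).Δ = 1728 * (W.Δ + K * (3 * W.c₄ ^ 2 * u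
      + 3 * W.c₄ * (1728 * K * u ^ 2)
      + 1728 ^ 2 * K ^ 2 * u ^ 3 - 2 * W.c₆ * v - 1728 * K * v ^ 2)) := by
    rw [h1]; linear_combination (-1 : ℤ) * h2
  exact mul_left_cancel₀ (by norm_num) h3

/-- Curves with `c₄, c₆` close to those of a semistable model `W` have a model which is
semistable at all primes dividing `30 Δ(W)`, with nonzero discriminant. -/
theorem exists_model_of_congr (W : WeierstrassCurve ℤ) (hΔ : W.Δ ≠ 0)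
    (hss : W.IsSemistableModel) :
    ∃ M₁ : ℕ, 0 < M₁ ∧ ∀ c4 c6 : ℤ, (M₁ : ℤ) ∣ c4 - W.c₄ → (M₁ : ℤ) ∣ c6 - W.c₆ →
      ∃ W' : WeierstrassCurve ℤ, W'.c₄ = c4 ∧ W'.c₆ = c6 ∧ W'.Δ ≠ 0 ∧
        30 * W.Δ ∣ W'.Δ - W.Δ ∧
        W'.a₁ = W.a₁ ∧ W'.a₂ = W.a₂ ∧ W'.a₃ = W.a₃ ∧
        30 * W.Δ ∣ W'.a₄ - W.a₄ ∧ 30 * W.Δ ∣ W'.a₆ - W.a₆ ∧
        ∀ r : ℕ, r.Prime → (r : ℤ) ∣ 30 * W.Δ → (r : ℤ) ∣ W'.Δ → ¬ (r : ℤ) ∣ W'.c₄ := by
  refine ⟨1728 * (30 * W.Δ.natAbs), by positivity, fun c4 c6 h4 h6 => ?_⟩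
  have hM : (1728 * (30 * W.Δ) : ℤ) ∣ ((1728 * (30 * W.Δ.natAbs) : ℕ) : ℤ) := by
    push_cast
    exact mul_dvd_mul_left _ (mul_dvd_mul_left _ (by rw [dvd_abs]))
  obtain ⟨u, hu⟩ := hM.trans h4
  obtain ⟨v, hv⟩ := hM.trans h6
  have e4 : (newModel W (30 * W.Δ) u v).c₄ = c4 := by
    rw [newModel_c₄]; linarith
  have e6 : (newModel W (30 * W.Δ) u v).c₆ = c6 := by
    rw [newModel_c₆]; linarith
  have eΔ := newModel_Δ W (30 * W.Δ) u v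
  set X : ℤ := 3 * W.c₄ ^ 2 * u + 3 * W.c₄ * (1728 * (30 * W.Δ) * u ^ 2)
      + 1728 ^ 2 * (30 * W.Δ) ^ 2 * u ^ 3 - 2 * W.c₆ * v - 1728 * (30 * W.Δ) * v ^ 2 with hX
  have hd : 30 * W.Δ ∣ (newModel W (30 * W.Δ) u v).Δ - W.Δ := ⟨X, by rw [eΔ]; ring⟩
  refine ⟨newModel W (30 * W.Δ) u v, e4, e6, ?_, hd, rfl, rfl, rfl,
    ⟨-36 * u, by simp only [newModel]; ring⟩,
    ⟨-3 * W.b₂ * u - 2 * v, by simp only [newModel]; ring⟩, ?_⟩
  · intro h0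
    rw [eΔ] at h0
    have : W.Δ * (1 + 30 * X) = 0 := by linear_combination h0
    rcases mul_eq_zero.mp this with h | h
    · exact hΔ h
    · omega
  · intro r hr hrK hrΔ hr4
    have h1 : (r : ℤ) ∣ W.Δ := by
      have := dvd_sub hrΔ (hrK.trans hd)
      rwa [sub_sub_cancel] at this
    refine hss r hr h1 ?_
    rw [newModel_c₄] at hr4
    have h2 : (r : ℤ) ∣ 1728 * (30 * W.Δ) * u := (hrK.mul_left 1728).mul_right u
    exact (dvd_add_left h2).mp hr4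

end Fermat.Agent.SW
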