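import Fermat.Agent.SW.Ids
import Fermat.Agent.SW.ExV
import Fermat.Agent.SW.Model

/-!
# Semistability of the family away from the bad primes
-/

set_option autoImplicit false
set_option linter.unusedVariables false

namespace Fermat.Agent.SW

open WeierstrassCurve

section forms

variable {R S : Type*} [CommRing R] [CommRing S]

theorem c4F_eq_hF (x y : R) : c4F x y = TF.hF x (-y) := by
  unfold c4F TF.hF
  ring

theorem c6F_eq_tF (x y : R) : c6F x y = TF.tF x (-y) := by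
  unfold c6F TF.tF
  ring

theorem map_p4 (φ : R →+* S) (c4 c6 l m : R) :
    φ (p4 c4 c6 l m) = p4 (φ c4) (φ c6) (φ l) (φ m) := by
  simp only [p4, u0, u1, u2, u3, u4, u5, u6, u7, u8, u9, u10, u11, u12, u13, u14, u15, u16, u17,
    u18, u19, u20, map_add, map_sub, map_mul, map_neg, map_pow, map_ofNat]

theorem map_p6 (φ : R →+* S) (c4 c6 l m : R) :
    φ (p6 c4 c6 l m) = p6 (φ c4) (φ c6) (φ l) (φ m) := by
  simp only [p6, v0, v1, v2, v3, v4, v5, v6, v7, v8, v9, v10, v11, v12, v13, v14, v15, v16, v17,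
    v18, v19, v20, v21, v22, v23, v24, v25, v26, v27, v28, v29, v30,
    map_add, map_sub, map_mul, map_neg, map_pow, map_ofNat]

theorem p4_one_zero (c4 c6 : R) : p4 c4 c6 1 0 = c4 := by
  simp [p4, u0]

theorem p6_one_zero (c4 c6 : R) : p6 c4 c6 1 0 = c6 := by
  simp [p6, v0]

theorem dvd_p4_sub (c4 c6 m : R) : m ∣ p4 c4 c6 1 m - c4 := by
  rw [← Ideal.mem_span_singleton, ← Ideal.Quotient.eq, map_p4, map_one,
    Ideal.Quotient.eq_zero_iff_mem.2 (Ideal.mem_span_singleton_self m), p4_one_zero]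

theorem dvd_p6_sub (c4 c6 m : R) : m ∣ p6 c4 c6 1 m - c6 := by
  rw [← Ideal.mem_span_singleton, ← Ideal.Quotient.eq, map_p6, map_one,
    Ideal.Quotient.eq_zero_iff_mem.2 (Ideal.mem_span_singleton_self m), p6_one_zero]

end forms

section field

variable {K : Type*} [Field K] [IsAlgClosed K]

theorem exists_v (h5 : (5 : K) ≠ 0) (h1728 : (1728 : K) ≠ 0) (c4 c6 : K)
    (h : c4 ^ 3 ≠ c6 ^ 2) : ∃ x y : K, c4F x y = c4 ∧ c6F x y = c6 := by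
  obtain ⟨x, y, hx, hy⟩ := exists_ico h5 h1728 c4 c6 h
  exact ⟨x, -y, by rw [c4F_eq_hF, neg_neg, hx], by rw [c6F_eq_tF, neg_neg, hy]⟩

/-- `p4` and `p6` have no common zero. -/
theorem zero_of_p4_p6 (h5 : (5 : K) ≠ 0) (h1728 : (1728 : K) ≠ 0) (c4 c6 : K)
    (h : c4 ^ 3 ≠ c6 ^ 2) (l m : K) (e4 : p4 c4 c6 l m = 0) (e6 : p6 c4 c6 l m = 0) :
    l = 0 ∧ m = 0 := by
  obtain ⟨x, y, hx, hy⟩ := exists_v h5 h1728 c4 c6 h
  have h12 : (12 : K) ≠ 0 := by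
    intro h0
    apply h1728
    rw [show (1728 : K) = 12 * 144 by norm_num, h0, zero_mul]
  have hf : fF x y ≠ 0 := by
    intro h0
    have h1 := rel x y
    rw [hx, hy, h0] at h1
    exact h (by linear_combination h1)
  have hw : wx x y l m = 0 ∧ wy x y l m = 0 := by
    have h4 := c4F_w x y l m
    have h6 := c6F_w x y l m
    rw [hx, hy, e4, c4F_eq_hF] at h4
    rw [hx, hy, e6, c6F_eq_tF] at h6
    obtain ⟨h1, h2⟩ := ico_zero_of_hF_tF h5 h1728 h4 h6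
    exact ⟨h1, neg_eq_zero.1 h2⟩
  have hm : 12 * fF x y * m = x * wy x y l m - y * wx x y l m := by
    unfold fF wx wy
    ring
  have hl : 12 * fF x y * l = (y * (11 * x ^ 10 + 66 * x ^ 5 * y ^ 5 - y ^ 10)) * wx x y l m +
      (x * (x ^ 10 + 66 * x ^ 5 * y ^ 5 - 11 * y ^ 10)) * wy x y l m := by
    unfold fF wx wy
    ring
  rw [hw.1, hw.2, mul_zero, mul_zero] at hm hl
  rw [sub_zero] at hm
  rw [add_zero] at hl
  exact ⟨(mul_eq_zero.1 hl).resolve_left (mul_ne_zero h12 hf),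
    (mul_eq_zero.1 hm).resolve_left (mul_ne_zero h12 hf)⟩

end field

/-- At a prime `r ∤ 30 Δ(W)`, the members of the family are semistable. -/
theorem not_dvd_of_away (W : WeierstrassCurve ℤ) (r : ℕ) (hr : r.Prime)
    (hrΔ : ¬ (r : ℤ) ∣ 30 * W.Δ) (m : ℤ) (W' : WeierstrassCurve ℤ)
    (h4 : W'.c₄ = p4 W.c₄ W.c₆ 1 m) (h6 : W'.c₆ = p6 W.c₄ W.c₆ 1 m)
    (hd : (r : ℤ) ∣ W'.Δ) : ¬ (r : ℤ) ∣ W'.c₄ := by
  intro hd4
  have : Fact r.Prime := ⟨hr⟩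
  have hrel := W'.c_relation
  have hd6 : (r : ℤ) ∣ W'.c₆ := by
    have h1 : (r : ℤ) ∣ W'.c₆ ^ 2 := by
      have : W'.c₆ ^ 2 = W'.c₄ ^ 3 - 1728 * W'.Δ := by linear_combination hrel
      rw [this]
      exact dvd_sub (dvd_pow hd4 (by norm_num)) (hd.mul_left _)
    exact (Nat.prime_iff_prime_int.1 hr).dvd_of_dvd_pow h1
  let φ : ℤ →+* AlgebraicClosure (ZMod r) :=
    (algebraMap (ZMod r) (AlgebraicClosure (ZMod r))).comp (Int.castRingHom (ZMod r))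
  have hφ : ∀ z : ℤ, φ z = 0 ↔ (r : ℤ) ∣ z := by
    intro z
    rw [RingHom.comp_apply, map_eq_zero_iff _ (FaithfulSMul.algebraMap_injective _ _)]
    exact ZMod.intCast_zmod_eq_zero_iff_dvd z r
  have hr5 : ¬ (r : ℤ) ∣ 5 := fun h => hrΔ ((h.mul_left 6).mul_right W.Δ)
  have hr6 : ¬ (r : ℤ) ∣ 6 := fun h => hrΔ (by
    have := (h.mul_left 5).mul_right W.Δ
    exact this)
  have h5 : (5 : AlgebraicClosure (ZMod r)) ≠ 0 := by
    intro h0
    apply hr5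
    rw [← hφ, map_ofNat, h0]
  have h1728 : (1728 : AlgebraicClosure (ZMod r)) ≠ 0 := by
    intro h0
    have h1 : (r : ℤ) ∣ 1728 := by
      rw [← hφ, map_ofNat, h0]
    have h2 : (r : ℤ) ∣ 6 ^ 6 := h1.trans (by norm_num)
    exact hr6 ((Nat.prime_iff_prime_int.1 hr).dvd_of_dvd_pow h2)
  have hne : (φ W.c₄) ^ 3 ≠ (φ W.c₆) ^ 2 := by
    intro h0
    have h1 : φ (1728 * W.Δ) = 0 := by
      rw [W.c_relation, map_sub, map_pow, map_pow, h0, sub_self]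
    rw [map_mul, map_ofNat] at h1
    have h2 : φ W.Δ = 0 := (mul_eq_zero.1 h1).resolve_left h1728
    exact hrΔ (((hφ _).1 h2).mul_left 30)
  have e4 : p4 (φ W.c₄) (φ W.c₆) 1 (φ m) = 0 := by
    rw [← map_one φ, ← map_p4, ← h4, hφ]
    exact hd4
  have e6 : p6 (φ W.c₄) (φ W.c₆) 1 (φ m) = 0 := by
    rw [← map_one φ, ← map_p6, ← h6, hφ]
    exact hd6
  exact one_ne_zero (zero_of_p4_p6 h5 h1728 _ _ hne 1 (φ m) e4 e6).1

/-- The members of the family with parameter divisible by `M` have semistable models. -/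
theorem exists_model (W : WeierstrassCurve ℤ) (hΔ : W.Δ ≠ 0) (hW : W.IsSemistableModel) :
    ∃ M : ℕ, 0 < M ∧ ∀ t : ℤ, ∃ W' : WeierstrassCurve ℤ,
      W'.c₄ = p4 W.c₄ W.c₆ 1 (M * t) ∧ W'.c₆ = p6 W.c₄ W.c₆ 1 (M * t) ∧ W'.Δ ≠ 0 ∧
      W'.IsSemistableModel ∧ 30 * W.Δ ∣ W'.Δ - W.Δ ∧
        W'.a₁ = W.a₁ ∧ W'.a₂ = W.a₂ ∧ W'.a₃ = W.a₃ ∧
        30 * W.Δ ∣ W'.a₄ - W.a₄ ∧ 30 * W.Δ ∣ W'.a₆ - W.a₆ := by
  obtain ⟨M, hM, h⟩ := exists_model_of_congr W hΔ hW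
  refine ⟨M, hM, fun t => ?_⟩
  obtain ⟨W', e4, e6, hΔ', hd, h1, h2, h3, h4, h6, hss⟩ := h (p4 W.c₄ W.c₆ 1 (M * t))
    (p6 W.c₄ W.c₆ 1 (M * t))
    ((dvd_mul_right _ _).trans (dvd_p4_sub _ _ _)) ((dvd_mul_right _ _).trans (dvd_p6_sub _ _ _))
  refine ⟨W', e4, e6, hΔ', ?_, hd, h1, h2, h3, h4, h6⟩
  intro r hr hrΔ
  by_cases hb : (r : ℤ) ∣ 30 * W.Δ
  · exact hss r hr hb hrΔ
  · exact not_dvd_of_away W r hr hb _ W' e4 e6 hrΔ

end Fermat.Agent.SW
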