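import Fermat.Agent.SW.Forms

/-!
# The covariants of the form of degree `12`
-/

set_option autoImplicit false
set_option linter.unusedVariables false
set_option linter.style.longLine false
set_option maxRecDepth 100000
set_option maxHeartbeats 4000000

namespace Fermat.Agent.SW

variable {R : Type*} [CommRing R]

/-- First partial derivative of `pD`. -/
def pDl (c4 c6 l m : R) : R :=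
  12 * d0 c4 c6 * l ^ 11 * m ^ 0 +
  10 * d2 c4 c6 * l ^ 9 * m ^ 2 +
  9 * d3 c4 c6 * l ^ 8 * m ^ 3 +
  8 * d4 c4 c6 * l ^ 7 * m ^ 4 +
  7 * d5 c4 c6 * l ^ 6 * m ^ 5 +
  6 * d6 c4 c6 * l ^ 5 * m ^ 6 +
  5 * d7 c4 c6 * l ^ 4 * m ^ 7 +
  4 * d8 c4 c6 * l ^ 3 * m ^ 8 +
  3 * d9 c4 c6 * l ^ 2 * m ^ 9 +
  2 * d10 c4 c6 * l ^ 1 * m ^ 10 +
  d11 c4 c6 * l ^ 0 * m ^ 11

/-- First partial derivative of `pD`. -/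
def pDm (c4 c6 l m : R) : R :=
  2 * d2 c4 c6 * l ^ 10 * m ^ 1 +
  3 * d3 c4 c6 * l ^ 9 * m ^ 2 +
  4 * d4 c4 c6 * l ^ 8 * m ^ 3 +
  5 * d5 c4 c6 * l ^ 7 * m ^ 4 +
  6 * d6 c4 c6 * l ^ 6 * m ^ 5 +
  7 * d7 c4 c6 * l ^ 5 * m ^ 6 +
  8 * d8 c4 c6 * l ^ 4 * m ^ 7 +
  9 * d9 c4 c6 * l ^ 3 * m ^ 8 +
  10 * d10 c4 c6 * l ^ 2 * m ^ 9 +
  11 * d11 c4 c6 * l ^ 1 * m ^ 10 +
  12 * d12 c4 c6 * l ^ 0 * m ^ 11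

/-- Second partial derivative of `pD`. -/
def pDll (c4 c6 l m : R) : R :=
  132 * d0 c4 c6 * l ^ 10 * m ^ 0 +
  90 * d2 c4 c6 * l ^ 8 * m ^ 2 +
  72 * d3 c4 c6 * l ^ 7 * m ^ 3 +
  56 * d4 c4 c6 * l ^ 6 * m ^ 4 +
  42 * d5 c4 c6 * l ^ 5 * m ^ 5 +
  30 * d6 c4 c6 * l ^ 4 * m ^ 6 +
  20 * d7 c4 c6 * l ^ 3 * m ^ 7 +
  12 * d8 c4 c6 * l ^ 2 * m ^ 8 +
  6 * d9 c4 c6 * l ^ 1 * m ^ 9 +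
  2 * d10 c4 c6 * l ^ 0 * m ^ 10

/-- Second partial derivative of `pD`. -/
def pDlm (c4 c6 l m : R) : R :=
  20 * d2 c4 c6 * l ^ 9 * m ^ 1 +
  27 * d3 c4 c6 * l ^ 8 * m ^ 2 +
  32 * d4 c4 c6 * l ^ 7 * m ^ 3 +
  35 * d5 c4 c6 * l ^ 6 * m ^ 4 +
  36 * d6 c4 c6 * l ^ 5 * m ^ 5 +
  35 * d7 c4 c6 * l ^ 4 * m ^ 6 +
  32 * d8 c4 c6 * l ^ 3 * m ^ 7 +
  27 * d9 c4 c6 * l ^ 2 * m ^ 8 +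
  20 * d10 c4 c6 * l ^ 1 * m ^ 9 +
  11 * d11 c4 c6 * l ^ 0 * m ^ 10

/-- Second partial derivative of `pD`. -/
def pDmm (c4 c6 l m : R) : R :=
  2 * d2 c4 c6 * l ^ 10 * m ^ 0 +
  6 * d3 c4 c6 * l ^ 9 * m ^ 1 +
  12 * d4 c4 c6 * l ^ 8 * m ^ 2 +
  20 * d5 c4 c6 * l ^ 7 * m ^ 3 +
  30 * d6 c4 c6 * l ^ 6 * m ^ 4 +
  42 * d7 c4 c6 * l ^ 5 * m ^ 5 +
  56 * d8 c4 c6 * l ^ 4 * m ^ 6 +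
  72 * d9 c4 c6 * l ^ 3 * m ^ 7 +
  90 * d10 c4 c6 * l ^ 2 * m ^ 8 +
  110 * d11 c4 c6 * l ^ 1 * m ^ 9 +
  132 * d12 c4 c6 * l ^ 0 * m ^ 10

/-- First partial derivative of `p4`. -/
def p4l (c4 c6 l m : R) : R :=
  20 * u0 c4 c6 * l ^ 19 * m ^ 0 +
  19 * u1 c4 c6 * l ^ 18 * m ^ 1 +
  18 * u2 c4 c6 * l ^ 17 * m ^ 2 +
  17 * u3 c4 c6 * l ^ 16 * m ^ 3 +
  16 * u4 c4 c6 * l ^ 15 * m ^ 4 +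
  15 * u5 c4 c6 * l ^ 14 * m ^ 5 +
  14 * u6 c4 c6 * l ^ 13 * m ^ 6 +
  13 * u7 c4 c6 * l ^ 12 * m ^ 7 +
  12 * u8 c4 c6 * l ^ 11 * m ^ 8 +
  11 * u9 c4 c6 * l ^ 10 * m ^ 9 +
  10 * u10 c4 c6 * l ^ 9 * m ^ 10 +
  9 * u11 c4 c6 * l ^ 8 * m ^ 11 +
  8 * u12 c4 c6 * l ^ 7 * m ^ 12 +
  7 * u13 c4 c6 * l ^ 6 * m ^ 13 +
  6 * u14 c4 c6 * l ^ 5 * m ^ 14 +
  5 * u15 c4 c6 * l ^ 4 * m ^ 15 +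
  4 * u16 c4 c6 * l ^ 3 * m ^ 16 +
  3 * u17 c4 c6 * l ^ 2 * m ^ 17 +
  2 * u18 c4 c6 * l ^ 1 * m ^ 18 +
  u19 c4 c6 * l ^ 0 * m ^ 19

/-- First partial derivative of `p4`. -/
def p4m (c4 c6 l m : R) : R :=
  u1 c4 c6 * l ^ 19 * m ^ 0 +
  2 * u2 c4 c6 * l ^ 18 * m ^ 1 +
  3 * u3 c4 c6 * l ^ 17 * m ^ 2 +
  4 * u4 c4 c6 * l ^ 16 * m ^ 3 +
  5 * u5 c4 c6 * l ^ 15 * m ^ 4 +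
  6 * u6 c4 c6 * l ^ 14 * m ^ 5 +
  7 * u7 c4 c6 * l ^ 13 * m ^ 6 +
  8 * u8 c4 c6 * l ^ 12 * m ^ 7 +
  9 * u9 c4 c6 * l ^ 11 * m ^ 8 +
  10 * u10 c4 c6 * l ^ 10 * m ^ 9 +
  11 * u11 c4 c6 * l ^ 9 * m ^ 10 +
  12 * u12 c4 c6 * l ^ 8 * m ^ 11 +
  13 * u13 c4 c6 * l ^ 7 * m ^ 12 +
  14 * u14 c4 c6 * l ^ 6 * m ^ 13 +
  15 * u15 c4 c6 * l ^ 5 * m ^ 14 +
  16 * u16 c4 c6 * l ^ 4 * m ^ 15 +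
  17 * u17 c4 c6 * l ^ 3 * m ^ 16 +
  18 * u18 c4 c6 * l ^ 2 * m ^ 17 +
  19 * u19 c4 c6 * l ^ 1 * m ^ 18 +
  20 * u20 c4 c6 * l ^ 0 * m ^ 19

/-- The Hessian of `pD`. -/
theorem hess_pD (c4 c6 l m : R) :
    pDll c4 c6 l m * pDmm c4 c6 l m - pDlm c4 c6 l m ^ 2 = -17424 * p4 c4 c6 l m := by
  unfold pDll pDmm pDlm p4 d0 d2 d3 d4 d5 d6 d7 d8 d9 d10 d11 d12 u0 u1 u2 u3 u4 u5 u6 u7 u8 u9 u10 u11 u12 u13 u14 u15 u16 u17 u18 u19 u20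
  ring

/-- The Jacobian of `pD` and `p4`. -/
theorem jac_pD (c4 c6 l m : R) :
    pDl c4 c6 l m * p4m c4 c6 l m - pDm c4 c6 l m * p4l c4 c6 l m = 240 * p6 c4 c6 l m := by
  unfold pDl pDm p4l p4m p6 d0 d2 d3 d4 d5 d6 d7 d8 d9 d10 d11 d12 u0 u1 u2 u3 u4 u5 u6 u7 u8 u9 u10 u11 u12 u13 u14 u15 u16 u17 u18 u19 u20 v0 v1 v2 v3 v4 v5 v6 v7 v8 v9 v10 v11 v12 v13 v14 v15 v16 v17 v18 v19 v20 v21 v22 v23 v24 v25 v26 v27 v28 v29 v30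
  ring

end Fermat.Agent.SW
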