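import Fermat.Agent.SW.Cov

/-!
# The icosahedral identities

The forms `c4F` and `c6F` are, up to constants, the Hessian of `fF` and the Jacobian of `fF` and
`c4F`; hence the identity for `fF` implies those for `c4F` and `c6F`.
-/

set_option autoImplicit false
set_option linter.unusedVariables false
set_option linter.unusedSimpArgs false
set_option maxRecDepth 100000
set_option maxHeartbeats 4000000

namespace Fermat.Agent.SW

section ring

variable {R : Type*} [CommRing R]

/-- The identity of degree 12 in the variables `s = x ^ 5`, `r = y ^ 5`. -/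
theorem fF_aux (s r p q l m c4 c6 : R)
    (hp : p = l - m * (s ^ 2 + 66 * s * r - 11 * r ^ 2))
    (hq : q = l + m * (11 * s ^ 2 + 66 * s * r - r ^ 2))
    (h4 : c4 = s ^ 4 - 228 * s ^ 3 * r + 494 * s ^ 2 * r ^ 2 + 228 * s * r ^ 3 + r ^ 4)
    (h6 : c6 = -(s ^ 6 + 522 * s ^ 5 * r - 10005 * s ^ 4 * r ^ 2 - 10005 * s ^ 2 * r ^ 4 -
      522 * s * r ^ 5 + r ^ 6)) :
    p * q * (s ^ 2 * p ^ 10 + 11 * s * r * p ^ 5 * q ^ 5 - r ^ 2 * q ^ 10) =
      (s ^ 2 + 11 * s * r - r ^ 2) * pD c4 c6 l m := by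
  subst hp hq h4 h6
  unfold pD d0 d2 d3 d4 d5 d6 d7 d8 d9 d10 d11 d12
  ring

theorem fF_mul (x y p q : R) : fF (x * p) (y * q) =
    x * y * (p * q * ((x ^ 5) ^ 2 * p ^ 10 + 11 * x ^ 5 * y ^ 5 * p ^ 5 * q ^ 5 -
      (y ^ 5) ^ 2 * q ^ 10)) := by
  unfold fF
  ring

theorem fF_w (x y l m : R) :
    fF (wx x y l m) (wy x y l m) = fF x y * pD (c4F x y) (c6F x y) l m := by
  have h := fF_aux (x ^ 5) (y ^ 5) (l - m * (x ^ 10 + 66 * x ^ 5 * y ^ 5 - 11 * y ^ 10))
    (l + m * (11 * x ^ 10 + 66 * x ^ 5 * y ^ 5 - y ^ 10)) l m (c4F x y) (c6F x y)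
    (by ring) (by ring) (by unfold c4F; ring) (by unfold c6F; ring)
  have h1 : fF x y = x * y * ((x ^ 5) ^ 2 + 11 * x ^ 5 * y ^ 5 - (y ^ 5) ^ 2) := by
    unfold fF
    ring
  rw [wx, wy, fF_mul, h, h1]
  ring

/-- Partial derivative of `fF`. -/
def fF1 (x y : R) : R := 11 * x ^ 10 * y + 66 * x ^ 5 * y ^ 6 - y ^ 11

/-- Partial derivative of `fF`. -/
def fF2 (x y : R) : R := x ^ 11 + 66 * x ^ 6 * y ^ 5 - 11 * x * y ^ 10

/-- Second partial derivative of `fF`. -/
def fF11 (x y : R) : R := 110 * x ^ 9 * y + 330 * x ^ 4 * y ^ 6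

/-- Second partial derivative of `fF`. -/
def fF12 (x y : R) : R := 11 * x ^ 10 + 396 * x ^ 5 * y ^ 5 - 11 * y ^ 10

/-- Second partial derivative of `fF`. -/
def fF22 (x y : R) : R := 330 * x ^ 6 * y ^ 4 - 110 * x * y ^ 9

/-- Partial derivative of `c4F`. -/
def c4F1 (x y : R) : R :=
  20 * x ^ 19 - 3420 * x ^ 14 * y ^ 5 + 4940 * x ^ 9 * y ^ 10 + 1140 * x ^ 4 * y ^ 15

/-- Partial derivative of `c4F`. -/
def c4F2 (x y : R) : R :=
  -(1140 * x ^ 15 * y ^ 4) + 4940 * x ^ 10 * y ^ 9 + 3420 * x ^ 5 * y ^ 14 + 20 * y ^ 19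

theorem hess_fF (x y : R) : fF11 x y * fF22 x y - fF12 x y ^ 2 = -121 * c4F x y := by
  unfold fF11 fF22 fF12 c4F
  ring

theorem jac_fF (x y : R) : fF1 x y * c4F2 x y - fF2 x y * c4F1 x y = 20 * c6F x y := by
  unfold fF1 fF2 c4F1 c4F2 c6F
  ring

theorem euler_fF (x y : R) : x * fF1 x y + y * fF2 x y = 12 * fF x y := by
  unfold fF1 fF2 fF
  ring

theorem wx_eq (x y l m : R) : wx x y l m = x * l - m * fF2 x y := by
  unfold wx fF2
  ring

theorem wy_eq (x y l m : R) : wy x y l m = y * l + m * fF1 x y := by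
  unfold wy fF1
  ring

end ring

section derivation

variable {A : Type*} [CommRing A] (D : Derivation ℤ A A)

theorem D_ofNat (n : ℕ) [n.AtLeastTwo] : D (ofNat(n) : A) = 0 := by
  have := D.map_natCast n
  exact_mod_cast this

theorem D_fF (X Y : A) : D (fF X Y) = fF1 X Y * D X + fF2 X Y * D Y := by
  simp only [fF, fF1, fF2, map_add, map_sub, Derivation.leibniz, Derivation.leibniz_pow, D_ofNat,
    smul_eq_mul, nsmul_eq_mul, Nat.reduceSub]
  push_cast
  ring

theorem D_fF1 (X Y : A) : D (fF1 X Y) = fF11 X Y * D X + fF12 X Y * D Y := by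
  simp only [fF1, fF11, fF12, map_add, map_sub, Derivation.leibniz, Derivation.leibniz_pow,
    D_ofNat, smul_eq_mul, nsmul_eq_mul, Nat.reduceSub]
  push_cast
  ring

theorem D_fF2 (X Y : A) : D (fF2 X Y) = fF12 X Y * D X + fF22 X Y * D Y := by
  simp only [fF2, fF12, fF22, map_add, map_sub, Derivation.leibniz, Derivation.leibniz_pow,
    D_ofNat, smul_eq_mul, nsmul_eq_mul, Nat.reduceSub]
  push_cast
  ring

theorem D_c4F (X Y : A) : D (c4F X Y) = c4F1 X Y * D X + c4F2 X Y * D Y := by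
  simp only [c4F, c4F1, c4F2, map_add, map_sub, Derivation.leibniz, Derivation.leibniz_pow,
    D_ofNat, smul_eq_mul, nsmul_eq_mul, Nat.reduceSub]
  push_cast
  ring

theorem D_c6F (X Y : A) (hX : D X = 0) (hY : D Y = 0) : D (c6F X Y) = 0 := by
  simp only [c6F, map_add, map_sub, map_neg, Derivation.leibniz, Derivation.leibniz_pow,
    D_ofNat, smul_eq_mul, nsmul_eq_mul, Nat.reduceSub, hX, hY, mul_zero, add_zero, sub_zero, neg_zero]

variable {a b : A} (ha : D a = 0) (hb : D b = 0)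

include ha hb

theorem D_d0 : D (d0 a b) = 0 := by
  simp only [d0, map_add, map_sub, map_neg, Derivation.leibniz, Derivation.leibniz_pow,
    D_ofNat, D.map_one_eq_zero, smul_eq_mul, nsmul_eq_mul, Nat.reduceSub, ha, hb, mul_zero, add_zero, sub_zero,
    neg_zero]

theorem D_d2 : D (d2 a b) = 0 := by
  simp only [d2, map_add, map_sub, map_neg, Derivation.leibniz, Derivation.leibniz_pow,
    D_ofNat, D.map_one_eq_zero, smul_eq_mul, nsmul_eq_mul, Nat.reduceSub, ha, hb, mul_zero, add_zero, sub_zero,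
    neg_zero]

theorem D_d3 : D (d3 a b) = 0 := by
  simp only [d3, map_add, map_sub, map_neg, Derivation.leibniz, Derivation.leibniz_pow,
    D_ofNat, D.map_one_eq_zero, smul_eq_mul, nsmul_eq_mul, Nat.reduceSub, ha, hb, mul_zero, add_zero, sub_zero,
    neg_zero]

theorem D_d4 : D (d4 a b) = 0 := by
  simp only [d4, map_add, map_sub, map_neg, Derivation.leibniz, Derivation.leibniz_pow,
    D_ofNat, D.map_one_eq_zero, smul_eq_mul, nsmul_eq_mul, Nat.reduceSub, ha, hb, mul_zero, add_zero, sub_zero,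
    neg_zero]

theorem D_d5 : D (d5 a b) = 0 := by
  simp only [d5, map_add, map_sub, map_neg, Derivation.leibniz, Derivation.leibniz_pow,
    D_ofNat, D.map_one_eq_zero, smul_eq_mul, nsmul_eq_mul, Nat.reduceSub, ha, hb, mul_zero, add_zero, sub_zero,
    neg_zero]

theorem D_d6 : D (d6 a b) = 0 := by
  simp only [d6, map_add, map_sub, map_neg, Derivation.leibniz, Derivation.leibniz_pow,
    D_ofNat, D.map_one_eq_zero, smul_eq_mul, nsmul_eq_mul, Nat.reduceSub, ha, hb, mul_zero, add_zero, sub_zero,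
    neg_zero]

theorem D_d7 : D (d7 a b) = 0 := by
  simp only [d7, map_add, map_sub, map_neg, Derivation.leibniz, Derivation.leibniz_pow,
    D_ofNat, D.map_one_eq_zero, smul_eq_mul, nsmul_eq_mul, Nat.reduceSub, ha, hb, mul_zero, add_zero, sub_zero,
    neg_zero]

theorem D_d8 : D (d8 a b) = 0 := by
  simp only [d8, map_add, map_sub, map_neg, Derivation.leibniz, Derivation.leibniz_pow,
    D_ofNat, D.map_one_eq_zero, smul_eq_mul, nsmul_eq_mul, Nat.reduceSub, ha, hb, mul_zero, add_zero, sub_zero,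
    neg_zero]

theorem D_d9 : D (d9 a b) = 0 := by
  simp only [d9, map_add, map_sub, map_neg, Derivation.leibniz, Derivation.leibniz_pow,
    D_ofNat, D.map_one_eq_zero, smul_eq_mul, nsmul_eq_mul, Nat.reduceSub, ha, hb, mul_zero, add_zero, sub_zero,
    neg_zero]

theorem D_d10 : D (d10 a b) = 0 := by
  simp only [d10, map_add, map_sub, map_neg, Derivation.leibniz, Derivation.leibniz_pow,
    D_ofNat, D.map_one_eq_zero, smul_eq_mul, nsmul_eq_mul, Nat.reduceSub, ha, hb, mul_zero, add_zero, sub_zero,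
    neg_zero]

theorem D_d11 : D (d11 a b) = 0 := by
  simp only [d11, map_add, map_sub, map_neg, Derivation.leibniz, Derivation.leibniz_pow,
    D_ofNat, D.map_one_eq_zero, smul_eq_mul, nsmul_eq_mul, Nat.reduceSub, ha, hb, mul_zero, add_zero, sub_zero,
    neg_zero]

theorem D_d12 : D (d12 a b) = 0 := by
  simp only [d12, map_add, map_sub, map_neg, Derivation.leibniz, Derivation.leibniz_pow,
    D_ofNat, D.map_one_eq_zero, smul_eq_mul, nsmul_eq_mul, Nat.reduceSub, ha, hb, mul_zero, add_zero, sub_zero,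
    neg_zero]

theorem D_u0 : D (u0 a b) = 0 := by
  simp only [u0, map_add, map_sub, map_neg, Derivation.leibniz, Derivation.leibniz_pow,
    D_ofNat, D.map_one_eq_zero, smul_eq_mul, nsmul_eq_mul, Nat.reduceSub, ha, hb, mul_zero, add_zero, sub_zero,
    neg_zero]

theorem D_u1 : D (u1 a b) = 0 := by
  simp only [u1, map_add, map_sub, map_neg, Derivation.leibniz, Derivation.leibniz_pow,
    D_ofNat, D.map_one_eq_zero, smul_eq_mul, nsmul_eq_mul, Nat.reduceSub, ha, hb, mul_zero, add_zero, sub_zero,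
    neg_zero]

theorem D_u2 : D (u2 a b) = 0 := by
  simp only [u2, map_add, map_sub, map_neg, Derivation.leibniz, Derivation.leibniz_pow,
    D_ofNat, D.map_one_eq_zero, smul_eq_mul, nsmul_eq_mul, Nat.reduceSub, ha, hb, mul_zero, add_zero, sub_zero,
    neg_zero]

theorem D_u3 : D (u3 a b) = 0 := by
  simp only [u3, map_add, map_sub, map_neg, Derivation.leibniz, Derivation.leibniz_pow,
    D_ofNat, D.map_one_eq_zero, smul_eq_mul, nsmul_eq_mul, Nat.reduceSub, ha, hb, mul_zero, add_zero, sub_zero,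
    neg_zero]

theorem D_u4 : D (u4 a b) = 0 := by
  simp only [u4, map_add, map_sub, map_neg, Derivation.leibniz, Derivation.leibniz_pow,
    D_ofNat, D.map_one_eq_zero, smul_eq_mul, nsmul_eq_mul, Nat.reduceSub, ha, hb, mul_zero, add_zero, sub_zero,
    neg_zero]

theorem D_u5 : D (u5 a b) = 0 := by
  simp only [u5, map_add, map_sub, map_neg, Derivation.leibniz, Derivation.leibniz_pow,
    D_ofNat, D.map_one_eq_zero, smul_eq_mul, nsmul_eq_mul, Nat.reduceSub, ha, hb, mul_zero, add_zero, sub_zero,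
    neg_zero]

theorem D_u6 : D (u6 a b) = 0 := by
  simp only [u6, map_add, map_sub, map_neg, Derivation.leibniz, Derivation.leibniz_pow,
    D_ofNat, D.map_one_eq_zero, smul_eq_mul, nsmul_eq_mul, Nat.reduceSub, ha, hb, mul_zero, add_zero, sub_zero,
    neg_zero]

theorem D_u7 : D (u7 a b) = 0 := by
  simp only [u7, map_add, map_sub, map_neg, Derivation.leibniz, Derivation.leibniz_pow,
    D_ofNat, D.map_one_eq_zero, smul_eq_mul, nsmul_eq_mul, Nat.reduceSub, ha, hb, mul_zero, add_zero, sub_zero,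
    neg_zero]

theorem D_u8 : D (u8 a b) = 0 := by
  simp only [u8, map_add, map_sub, map_neg, Derivation.leibniz, Derivation.leibniz_pow,
    D_ofNat, D.map_one_eq_zero, smul_eq_mul, nsmul_eq_mul, Nat.reduceSub, ha, hb, mul_zero, add_zero, sub_zero,
    neg_zero]

theorem D_u9 : D (u9 a b) = 0 := by
  simp only [u9, map_add, map_sub, map_neg, Derivation.leibniz, Derivation.leibniz_pow,
    D_ofNat, D.map_one_eq_zero, smul_eq_mul, nsmul_eq_mul, Nat.reduceSub, ha, hb, mul_zero, add_zero, sub_zero,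
    neg_zero]

theorem D_u10 : D (u10 a b) = 0 := by
  simp only [u10, map_add, map_sub, map_neg, Derivation.leibniz, Derivation.leibniz_pow,
    D_ofNat, D.map_one_eq_zero, smul_eq_mul, nsmul_eq_mul, Nat.reduceSub, ha, hb, mul_zero, add_zero, sub_zero,
    neg_zero]

theorem D_u11 : D (u11 a b) = 0 := by
  simp only [u11, map_add, map_sub, map_neg, Derivation.leibniz, Derivation.leibniz_pow,
    D_ofNat, D.map_one_eq_zero, smul_eq_mul, nsmul_eq_mul, Nat.reduceSub, ha, hb, mul_zero, add_zero, sub_zero,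
    neg_zero]

theorem D_u12 : D (u12 a b) = 0 := by
  simp only [u12, map_add, map_sub, map_neg, Derivation.leibniz, Derivation.leibniz_pow,
    D_ofNat, D.map_one_eq_zero, smul_eq_mul, nsmul_eq_mul, Nat.reduceSub, ha, hb, mul_zero, add_zero, sub_zero,
    neg_zero]

theorem D_u13 : D (u13 a b) = 0 := by
  simp only [u13, map_add, map_sub, map_neg, Derivation.leibniz, Derivation.leibniz_pow,
    D_ofNat, D.map_one_eq_zero, smul_eq_mul, nsmul_eq_mul, Nat.reduceSub, ha, hb, mul_zero, add_zero, sub_zero,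
    neg_zero]

theorem D_u14 : D (u14 a b) = 0 := by
  simp only [u14, map_add, map_sub, map_neg, Derivation.leibniz, Derivation.leibniz_pow,
    D_ofNat, D.map_one_eq_zero, smul_eq_mul, nsmul_eq_mul, Nat.reduceSub, ha, hb, mul_zero, add_zero, sub_zero,
    neg_zero]

theorem D_u15 : D (u15 a b) = 0 := by
  simp only [u15, map_add, map_sub, map_neg, Derivation.leibniz, Derivation.leibniz_pow,
    D_ofNat, D.map_one_eq_zero, smul_eq_mul, nsmul_eq_mul, Nat.reduceSub, ha, hb, mul_zero, add_zero, sub_zero,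
    neg_zero]

theorem D_u16 : D (u16 a b) = 0 := by
  simp only [u16, map_add, map_sub, map_neg, Derivation.leibniz, Derivation.leibniz_pow,
    D_ofNat, D.map_one_eq_zero, smul_eq_mul, nsmul_eq_mul, Nat.reduceSub, ha, hb, mul_zero, add_zero, sub_zero,
    neg_zero]

theorem D_u17 : D (u17 a b) = 0 := by
  simp only [u17, map_add, map_sub, map_neg, Derivation.leibniz, Derivation.leibniz_pow,
    D_ofNat, D.map_one_eq_zero, smul_eq_mul, nsmul_eq_mul, Nat.reduceSub, ha, hb, mul_zero, add_zero, sub_zero,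
    neg_zero]

theorem D_u18 : D (u18 a b) = 0 := by
  simp only [u18, map_add, map_sub, map_neg, Derivation.leibniz, Derivation.leibniz_pow,
    D_ofNat, D.map_one_eq_zero, smul_eq_mul, nsmul_eq_mul, Nat.reduceSub, ha, hb, mul_zero, add_zero, sub_zero,
    neg_zero]

theorem D_u19 : D (u19 a b) = 0 := by
  simp only [u19, map_add, map_sub, map_neg, Derivation.leibniz, Derivation.leibniz_pow,
    D_ofNat, D.map_one_eq_zero, smul_eq_mul, nsmul_eq_mul, Nat.reduceSub, ha, hb, mul_zero, add_zero, sub_zero,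
    neg_zero]

theorem D_u20 : D (u20 a b) = 0 := by
  simp only [u20, map_add, map_sub, map_neg, Derivation.leibniz, Derivation.leibniz_pow,
    D_ofNat, D.map_one_eq_zero, smul_eq_mul, nsmul_eq_mul, Nat.reduceSub, ha, hb, mul_zero, add_zero, sub_zero,
    neg_zero]

theorem D_pD (l m : A) : D (pD a b l m) = pDl a b l m * D l + pDm a b l m * D m := by
  simp only [pD, pDl, pDm, map_add, map_sub, Derivation.leibniz, Derivation.leibniz_pow,
    D_ofNat, smul_eq_mul, nsmul_eq_mul, Nat.reduceSub, mul_zero, add_zero,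
    D_d0 D ha hb, D_d2 D ha hb, D_d3 D ha hb, D_d4 D ha hb, D_d5 D ha hb, D_d6 D ha hb, D_d7 D ha hb, D_d8 D ha hb, D_d9 D ha hb, D_d10 D ha hb, D_d11 D ha hb, D_d12 D ha hb]
  push_cast
  ring

theorem D_pDl (l m : A) : D (pDl a b l m) = pDll a b l m * D l + pDlm a b l m * D m := by
  simp only [pDl, pDll, pDlm, map_add, map_sub, Derivation.leibniz, Derivation.leibniz_pow,
    D_ofNat, smul_eq_mul, nsmul_eq_mul, Nat.reduceSub, mul_zero, add_zero,
    D_d0 D ha hb, D_d2 D ha hb, D_d3 D ha hb, D_d4 D ha hb, D_d5 D ha hb, D_d6 D ha hb, D_d7 D ha hb, D_d8 D ha hb, D_d9 D ha hb, D_d10 D ha hb, D_d11 D ha hb, D_d12 D ha hb]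
  push_cast
  ring

theorem D_pDm (l m : A) : D (pDm a b l m) = pDlm a b l m * D l + pDmm a b l m * D m := by
  simp only [pDm, pDlm, pDmm, map_add, map_sub, Derivation.leibniz, Derivation.leibniz_pow,
    D_ofNat, smul_eq_mul, nsmul_eq_mul, Nat.reduceSub, mul_zero, add_zero,
    D_d0 D ha hb, D_d2 D ha hb, D_d3 D ha hb, D_d4 D ha hb, D_d5 D ha hb, D_d6 D ha hb, D_d7 D ha hb, D_d8 D ha hb, D_d9 D ha hb, D_d10 D ha hb, D_d11 D ha hb, D_d12 D ha hb]
  push_cast
  ring

theorem D_p4 (l m : A) : D (p4 a b l m) = p4l a b l m * D l + p4m a b l m * D m := by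
  simp only [p4, p4l, p4m, map_add, map_sub, Derivation.leibniz, Derivation.leibniz_pow,
    D_ofNat, smul_eq_mul, nsmul_eq_mul, Nat.reduceSub, mul_zero, add_zero,
    D_u0 D ha hb, D_u1 D ha hb, D_u2 D ha hb, D_u3 D ha hb, D_u4 D ha hb, D_u5 D ha hb, D_u6 D ha hb, D_u7 D ha hb, D_u8 D ha hb, D_u9 D ha hb, D_u10 D ha hb, D_u11 D ha hb, D_u12 D ha hb, D_u13 D ha hb, D_u14 D ha hb, D_u15 D ha hb, D_u16 D ha hb, D_u17 D ha hb, D_u18 D ha hb, D_u19 D ha hb, D_u20 D ha hb]
  push_cast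
  ring

end derivation

end Fermat.Agent.SW
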