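import Mathlib

/-!
# The icosahedral forms and the family of curves with the same `5`-torsion: identities
-/

set_option autoImplicit false
set_option linter.unusedVariables false

namespace Fermat.Agent.SW

section Forms

variable {R : Type*} [CommRing R]

/-- The form of degree `12`. -/
def fF (x y : R) : R := x * y * (x ^ 10 + 11 * x ^ 5 * y ^ 5 - y ^ 10)

/-- The form of degree `20`. -/
def c4F (x y : R) : R :=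
  x ^ 20 - 228 * x ^ 15 * y ^ 5 + 494 * x ^ 10 * y ^ 10 + 228 * x ^ 5 * y ^ 15 + y ^ 20

/-- The form of degree `30`. -/
def c6F (x y : R) : R :=
  -(x ^ 30 + 522 * x ^ 25 * y ^ 5 - 10005 * x ^ 20 * y ^ 10 - 10005 * x ^ 10 * y ^ 20 -
    522 * x ^ 5 * y ^ 25 + y ^ 30)

theorem rel (x y : R) : c4F x y ^ 3 - c6F x y ^ 2 = -1728 * fF x y ^ 5 := by
  unfold c4F c6F fF
  ring

/-- The first coordinate of the point of parameters `l, m`. -/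
def wx (x y l m : R) : R := x * (l - m * (x ^ 10 + 66 * x ^ 5 * y ^ 5 - 11 * y ^ 10))

/-- The second coordinate of the point of parameters `l, m`. -/
def wy (x y l m : R) : R := y * (l + m * (11 * x ^ 10 + 66 * x ^ 5 * y ^ 5 - y ^ 10))

/-- Coefficient. -/
def d0 (c4 c6 : R) : R := 1

/-- Coefficient. -/
def d2 (c4 c6 : R) : R := -(66 * c4)

/-- Coefficient. -/
def d3 (c4 c6 : R) : R := -(440 * c6)

/-- Coefficient. -/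
def d4 (c4 c6 : R) : R := -(1485 * c4 ^ 2)

/-- Coefficient. -/
def d5 (c4 c6 : R) : R := -(3168 * c4 * c6)

/-- Coefficient. -/
def d6 (c4 c6 : R) : R := -(10560 * c6 ^ 2) + 5940 * c4 ^ 3

/-- Coefficient. -/
def d7 (c4 c6 : R) : R := -(4752 * c4 ^ 2 * c6)

/-- Coefficient. -/
def d8 (c4 c6 : R) : R := 63360 * c4 * c6 ^ 2 - 66825 * c4 ^ 4

/-- Coefficient. -/
def d9 (c4 c6 : R) : R := 140800 * c6 ^ 3 - 142560 * c4 ^ 3 * c6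

/-- Coefficient. -/
def d10 (c4 c6 : R) : R := 133056 * c4 ^ 2 * c6 ^ 2 - 133650 * c4 ^ 5

/-- Coefficient. -/
def d11 (c4 c6 : R) : R := 61440 * c4 * c6 ^ 3 - 61560 * c4 ^ 4 * c6

/-- Coefficient. -/
def d12 (c4 c6 : R) : R := 102400 * c6 ^ 4 - 193536 * c4 ^ 3 * c6 ^ 2 + 91125 * c4 ^ 6


/-- The form of degree `12` in the parameters. -/
def pD (c4 c6 l m : R) : R :=
  d0 c4 c6 * l ^ 12 +
  d2 c4 c6 * l ^ 10 * m ^ 2 +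
  d3 c4 c6 * l ^ 9 * m ^ 3 +
  d4 c4 c6 * l ^ 8 * m ^ 4 +
  d5 c4 c6 * l ^ 7 * m ^ 5 +
  d6 c4 c6 * l ^ 6 * m ^ 6 +
  d7 c4 c6 * l ^ 5 * m ^ 7 +
  d8 c4 c6 * l ^ 4 * m ^ 8 +
  d9 c4 c6 * l ^ 3 * m ^ 9 +
  d10 c4 c6 * l ^ 2 * m ^ 10 +
  d11 c4 c6 * l * m ^ 11 +
  d12 c4 c6 * m ^ 12

/-- Coefficient. -/
def u0 (c4 c6 : R) : R := c4

/-- Coefficient. -/
def u1 (c4 c6 : R) : R := 20 * c6

/-- Coefficient. -/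
def u2 (c4 c6 : R) : R := 190 * c4 ^ 2

/-- Coefficient. -/
def u3 (c4 c6 : R) : R := 1140 * c4 * c6

/-- Coefficient. -/
def u4 (c4 c6 : R) : R := 5700 * c6 ^ 2 - 855 * c4 ^ 3

/-- Coefficient. -/
def u5 (c4 c6 : R) : R := 15504 * c4 ^ 2 * c6

/-- Coefficient. -/
def u6 (c4 c6 : R) : R := -(63840 * c4 * c6 ^ 2) + 102600 * c4 ^ 4

/-- Coefficient. -/
def u7 (c4 c6 : R) : R := -(182400 * c6 ^ 3) + 259920 * c4 ^ 3 * c6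

/-- Coefficient. -/
def u8 (c4 c6 : R) : R := 1126320 * c4 ^ 2 * c6 ^ 2 - 1000350 * c4 ^ 5

/-- Coefficient. -/
def u9 (c4 c6 : R) : R := 7904000 * c4 * c6 ^ 3 - 7736040 * c4 ^ 4 * c6

/-- Coefficient. -/
def u10 (c4 c6 : R) : R := 15808000 * c6 ^ 4 - 5619744 * c4 ^ 3 * c6 ^ 2 - 10003500 * c4 ^ 6

/-- Coefficient. -/
def u11 (c4 c6 : R) : R := 54853760 * c4 ^ 2 * c6 ^ 3 - 54685800 * c4 ^ 5 * c6

/-- Coefficient. -/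
def u12 (c4 c6 : R) : R := 37939200 * c4 * c6 ^ 4 + 7202520 * c4 ^ 4 * c6 ^ 2 - 45015750 * c4 ^ 7

/-- Coefficient. -/
def u13 (c4 c6 : R) : R := 58368000 * c6 ^ 5 - 23201280 * c4 ^ 3 * c6 ^ 3 - 35089200 * c4 ^ 6 * c6

/-- Coefficient. -/
def u14 (c4 c6 : R) : R := 287462400 * c4 ^ 2 * c6 ^ 4 - 495188640 * c4 ^ 5 * c6 ^ 2 + 207765000 * c4 ^ 8

/-- Coefficient. -/
def u15 (c4 c6 : R) : R := 466944000 * c4 * c6 ^ 5 - 882458496 * c4 ^ 4 * c6 ^ 3 + 415530000 * c4 ^ 7 * c6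

/-- Coefficient. -/
def u16 (c4 c6 : R) : R := 583680000 * c6 ^ 6 - 1220474880 * c4 ^ 3 * c6 ^ 4 + 714711600 * c4 ^ 6 * c6 ^ 2 - 77911875 * c4 ^ 9

/-- Coefficient. -/
def u17 (c4 c6 : R) : R := 361881600 * c4 ^ 2 * c6 ^ 5 - 715080960 * c4 ^ 5 * c6 ^ 3 + 353200500 * c4 ^ 8 * c6

/-- Coefficient. -/
def u18 (c4 c6 : R) : R := -(622592000 * c4 * c6 ^ 6) + 2026391040 * c4 ^ 4 * c6 ^ 4 - 2182917600 * c4 ^ 7 * c6 ^ 2 + 779118750 * c4 ^ 10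

/-- Coefficient. -/
def u19 (c4 c6 : R) : R := -(655360000 * c6 ^ 7) + 2005401600 * c4 ^ 3 * c6 ^ 5 - 2044414080 * c4 ^ 6 * c6 ^ 3 + 694372500 * c4 ^ 9 * c6

/-- Coefficient. -/
def u20 (c4 c6 : R) : R := -(180224000 * c4 ^ 2 * c6 ^ 6) + 544997376 * c4 ^ 5 * c6 ^ 4 - 549301500 * c4 ^ 8 * c6 ^ 2 + 184528125 * c4 ^ 11


/-- The form of degree `20` in the parameters. -/
def p4 (c4 c6 l m : R) : R :=
  u0 c4 c6 * l ^ 20 +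
  u1 c4 c6 * l ^ 19 * m +
  u2 c4 c6 * l ^ 18 * m ^ 2 +
  u3 c4 c6 * l ^ 17 * m ^ 3 +
  u4 c4 c6 * l ^ 16 * m ^ 4 +
  u5 c4 c6 * l ^ 15 * m ^ 5 +
  u6 c4 c6 * l ^ 14 * m ^ 6 +
  u7 c4 c6 * l ^ 13 * m ^ 7 +
  u8 c4 c6 * l ^ 12 * m ^ 8 +
  u9 c4 c6 * l ^ 11 * m ^ 9 +
  u10 c4 c6 * l ^ 10 * m ^ 10 +
  u11 c4 c6 * l ^ 9 * m ^ 11 +
  u12 c4 c6 * l ^ 8 * m ^ 12 +
  u13 c4 c6 * l ^ 7 * m ^ 13 +
  u14 c4 c6 * l ^ 6 * m ^ 14 +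
  u15 c4 c6 * l ^ 5 * m ^ 15 +
  u16 c4 c6 * l ^ 4 * m ^ 16 +
  u17 c4 c6 * l ^ 3 * m ^ 17 +
  u18 c4 c6 * l ^ 2 * m ^ 18 +
  u19 c4 c6 * l * m ^ 19 +
  u20 c4 c6 * m ^ 20

/-- Coefficient. -/
def v0 (c4 c6 : R) : R := c6

/-- Coefficient. -/
def v1 (c4 c6 : R) : R := 30 * c4 ^ 2

/-- Coefficient. -/
def v2 (c4 c6 : R) : R := 435 * c4 * c6

/-- Coefficient. -/
def v3 (c4 c6 : R) : R := 2900 * c6 ^ 2 + 1160 * c4 ^ 3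

/-- Coefficient. -/
def v4 (c4 c6 : R) : R := 27405 * c4 ^ 2 * c6

/-- Coefficient. -/
def v5 (c4 c6 : R) : R := 46980 * c4 * c6 ^ 2 + 95526 * c4 ^ 4

/-- Coefficient. -/
def v6 (c4 c6 : R) : R := 156600 * c6 ^ 3 + 437175 * c4 ^ 3 * c6

/-- Coefficient. -/
def v7 (c4 c6 : R) : R := 3915000 * c4 ^ 2 * c6 ^ 2 - 1879200 * c4 ^ 5

/-- Coefficient. -/
def v8 (c4 c6 : R) : R := 14407200 * c4 * c6 ^ 3 - 8554275 * c4 ^ 4 * c6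

/-- Coefficient. -/
def v9 (c4 c6 : R) : R := 32016000 * c6 ^ 4 - 42021000 * c4 ^ 3 * c6 ^ 2 + 24312150 * c4 ^ 6

/-- Coefficient. -/
def v10 (c4 c6 : R) : R := -(216588240 * c4 ^ 2 * c6 ^ 3) + 246633255 * c4 ^ 5 * c6

/-- Coefficient. -/
def v11 (c4 c6 : R) : R := -(1459929600 * c4 * c6 ^ 4) + 1352475900 * c4 ^ 4 * c6 ^ 2 + 162081000 * c4 ^ 7

/-- Coefficient. -/
def v12 (c4 c6 : R) : R := -(2433216000 * c6 ^ 5) - 1612005600 * c4 ^ 3 * c6 ^ 3 + 4131714825 * c4 ^ 6 * c6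

/-- Coefficient. -/
def v13 (c4 c6 : R) : R := -(12044419200 * c4 ^ 2 * c6 ^ 4) + 5235216300 * c4 ^ 5 * c6 ^ 2 + 6928962750 * c4 ^ 8

/-- Coefficient. -/
def v14 (c4 c6 : R) : R := -(43045111800 * c4 ^ 4 * c6 ^ 3) + 43190534475 * c4 ^ 7 * c6

/-- Coefficient. -/
def v15 (c4 c6 : R) : R := -(79420170240 * c4 ^ 3 * c6 ^ 4) + 79575287760 * c4 ^ 6 * c6 ^ 2

/-- Coefficient. -/
def v16 (c4 c6 : R) : R := -(297825638400 * c4 ^ 2 * c6 ^ 5) + 474659611200 * c4 ^ 5 * c6 ^ 3 - 176688550125 * c4 ^ 8 * c6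

/-- Coefficient. -/
def v17 (c4 c6 : R) : R := -(700766208000 * c4 * c6 ^ 6) + 935084908800 * c4 ^ 4 * c6 ^ 4 + 77604382800 * c4 ^ 7 * c6 ^ 2 - 311803323750 * c4 ^ 10

/-- Coefficient. -/
def v18 (c4 c6 : R) : R := -(778629120000 * c6 ^ 7) - 303665356800 * c4 ^ 3 * c6 ^ 5 + 2776512362400 * c4 ^ 6 * c6 ^ 3 - 1694131392375 * c4 ^ 9 * c6

/-- Coefficient. -/
def v19 (c4 c6 : R) : R := -(4290656256000 * c4 ^ 2 * c6 ^ 6) + 8100765158400 * c4 ^ 5 * c6 ^ 4 - 3481840250100 * c4 ^ 8 * c6 ^ 2 - 328214025000 * c4 ^ 11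

/-- Coefficient. -/
def v20 (c4 c6 : R) : R := -(3442360320000 * c4 * c6 ^ 7) + 3892110842880 * c4 ^ 4 * c6 ^ 5 + 2424887357760 * c4 ^ 7 * c6 ^ 3 - 2874607835625 * c4 ^ 10 * c6

/-- Coefficient. -/
def v21 (c4 c6 : R) : R := -(3278438400000 * c6 ^ 8) + 5125838438400 * c4 ^ 3 * c6 ^ 6 - 2709129888000 * c4 ^ 6 * c6 ^ 4 + 3077188825500 * c4 ^ 9 * c6 ^ 2 - 2215444668750 * c4 ^ 12

/-- Coefficient. -/
def v22 (c4 c6 : R) : R := -(4573421568000 * c4 ^ 2 * c6 ^ 7) + 7701051801600 * c4 ^ 5 * c6 ^ 5 - 1724509423800 * c4 ^ 8 * c6 ^ 3 - 1403114956875 * c4 ^ 11 * c6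

/-- Coefficient. -/
def v23 (c4 c6 : R) : R := 6157762560000 * c4 * c6 ^ 8 - 30337884979200 * c4 ^ 4 * c6 ^ 6 + 49888700928000 * c4 ^ 7 * c6 ^ 4 - 33414470973000 * c4 ^ 10 * c6 ^ 2 + 7705894500000 * c4 ^ 13

/-- Coefficient. -/
def v24 (c4 c6 : R) : R := 5131468800000 * c6 ^ 9 - 22779445248000 * c4 ^ 3 * c6 ^ 7 + 35246094796800 * c4 ^ 6 * c6 ^ 5 - 22687218914400 * c4 ^ 9 * c6 ^ 3 + 5089101159375 * c4 ^ 12 * c6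

/-- Coefficient. -/
def v25 (c4 c6 : R) : R := -(18216714240000 * c4 ^ 2 * c6 ^ 8) + 71274600677376 * c4 ^ 5 * c6 ^ 6 - 105528606261120 * c4 ^ 8 * c6 ^ 4 + 70097953635000 * c4 ^ 11 * c6 ^ 2 - 17627233668750 * c4 ^ 14

/-- Coefficient. -/
def v26 (c4 c6 : R) : R := -(41051750400000 * c4 * c6 ^ 9) + 163803539865600 * c4 ^ 4 * c6 ^ 7 - 245438120632320 * c4 ^ 7 * c6 ^ 5 + 163672057566000 * c4 ^ 10 * c6 ^ 3 - 40985726371875 * c4 ^ 13 * c6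

/-- Coefficient. -/
def v27 (c4 c6 : R) : R := -(30408704000000 * c6 ^ 10) + 111934439424000 * c4 ^ 3 * c6 ^ 8 - 143803576074240 * c4 ^ 6 * c6 ^ 6 + 63806176396800 * c4 ^ 9 * c6 ^ 4 + 8104032382500 * c4 ^ 12 * c6 ^ 2 - 9632368125000 * c4 ^ 15

/-- Coefficient. -/
def v28 (c4 c6 : R) : R := -(21438136320000 * c4 ^ 2 * c6 ^ 9) + 85731449241600 * c4 ^ 5 * c6 ^ 7 - 128580522647040 * c4 ^ 8 * c6 ^ 5 + 85719228804000 * c4 ^ 11 * c6 ^ 3 - 21432019078125 * c4 ^ 14 * c6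

/-- Coefficient. -/
def v29 (c4 c6 : R) : R := 5033164800000 * c4 * c6 ^ 10 - 31344427008000 * c4 ^ 4 * c6 ^ 8 + 75042714746880 * c4 ^ 7 * c6 ^ 6 - 87394892457600 * c4 ^ 10 * c6 ^ 4 + 49873523512500 * c4 ^ 13 * c6 ^ 2 - 11210083593750 * c4 ^ 16

/-- Coefficient. -/
def v30 (c4 c6 : R) : R := 3355443200000 * c6 ^ 11 - 17532190720000 * c4 ^ 3 * c6 ^ 9 + 36574189977600 * c4 ^ 6 * c6 ^ 7 - 38083944628224 * c4 ^ 9 * c6 ^ 5 + 19796866155000 * c4 ^ 12 * c6 ^ 3 - 4110363984375 * c4 ^ 15 * c6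


/-- The form of degree `30` in the parameters. -/
def p6 (c4 c6 l m : R) : R :=
  v0 c4 c6 * l ^ 30 +
  v1 c4 c6 * l ^ 29 * m +
  v2 c4 c6 * l ^ 28 * m ^ 2 +
  v3 c4 c6 * l ^ 27 * m ^ 3 +
  v4 c4 c6 * l ^ 26 * m ^ 4 +
  v5 c4 c6 * l ^ 25 * m ^ 5 +
  v6 c4 c6 * l ^ 24 * m ^ 6 +
  v7 c4 c6 * l ^ 23 * m ^ 7 +
  v8 c4 c6 * l ^ 22 * m ^ 8 +
  v9 c4 c6 * l ^ 21 * m ^ 9 +
  v10 c4 c6 * l ^ 20 * m ^ 10 +
  v11 c4 c6 * l ^ 19 * m ^ 11 +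
  v12 c4 c6 * l ^ 18 * m ^ 12 +
  v13 c4 c6 * l ^ 17 * m ^ 13 +
  v14 c4 c6 * l ^ 16 * m ^ 14 +
  v15 c4 c6 * l ^ 15 * m ^ 15 +
  v16 c4 c6 * l ^ 14 * m ^ 16 +
  v17 c4 c6 * l ^ 13 * m ^ 17 +
  v18 c4 c6 * l ^ 12 * m ^ 18 +
  v19 c4 c6 * l ^ 11 * m ^ 19 +
  v20 c4 c6 * l ^ 10 * m ^ 20 +
  v21 c4 c6 * l ^ 9 * m ^ 21 +
  v22 c4 c6 * l ^ 8 * m ^ 22 +
  v23 c4 c6 * l ^ 7 * m ^ 23 +
  v24 c4 c6 * l ^ 6 * m ^ 24 +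
  v25 c4 c6 * l ^ 5 * m ^ 25 +
  v26 c4 c6 * l ^ 4 * m ^ 26 +
  v27 c4 c6 * l ^ 3 * m ^ 27 +
  v28 c4 c6 * l ^ 2 * m ^ 28 +
  v29 c4 c6 * l * m ^ 29 +
  v30 c4 c6 * m ^ 30

end Forms

end Fermat.Agent.SW
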