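import Fermat.Agent.SW.CovD

/-!
# The icosahedral identities: final form
-/

set_option autoImplicit false
set_option linter.unusedVariables false
set_option linter.unusedSimpArgs false
set_option maxRecDepth 100000

noncomputable section

namespace Fermat.Agent.SW

section dom

variable {A : Type*} [CommRing A] [IsDomain A] [CharZero A] (D₁ D₂ : Derivation ℤ A A)
  {x y l m : A} (h1x : D₁ x = 0) (h1y : D₁ y = 0) (h1l : D₁ l = 1) (h1m : D₁ m = 0)
  (h2x : D₂ x = 0) (h2y : D₂ y = 0) (h2l : D₂ l = 0) (h2m : D₂ m = 1) (hf : fF x y ≠ 0)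

include h1x h1y h1l h1m h2x h2y h2l h2m hf

theorem dom_ids :
    c4F (wx x y l m) (wy x y l m) = p4 (c4F x y) (c6F x y) l m ∧
    c6F (wx x y l m) (wy x y l m) = p6 (c4F x y) (c6F x y) l m := by
  have h1a : D₁ (c4F x y) = 0 := by rw [D_c4F, h1x, h1y]; ring
  have h2a : D₂ (c4F x y) = 0 := by rw [D_c4F, h2x, h2y]; ring
  have h1b : D₁ (c6F x y) = 0 := D_c6F D₁ x y h1x h1y
  have h2b : D₂ (c6F x y) = 0 := D_c6F D₂ x y h2x h2y
  have h1F : D₁ (fF x y) = 0 := by rw [D_fF, h1x, h1y]; ring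
  have h2F : D₂ (fF x y) = 0 := by rw [D_fF, h2x, h2y]; ring
  have h1F1 : D₁ (fF1 x y) = 0 := by rw [D_fF1, h1x, h1y]; ring
  have h2F1 : D₂ (fF1 x y) = 0 := by rw [D_fF1, h2x, h2y]; ring
  have h1F2 : D₁ (fF2 x y) = 0 := by rw [D_fF2, h1x, h1y]; ring
  have h2F2 : D₂ (fF2 x y) = 0 := by rw [D_fF2, h2x, h2y]; ring
  have e1X : D₁ (wx x y l m) = x := by
    rw [wx_eq, map_sub, Derivation.leibniz, Derivation.leibniz, h1x, h1l, h1m, h1F2]
    simp only [smul_eq_mul]; ring
  have e2X : D₂ (wx x y l m) = -fF2 x y := by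
    rw [wx_eq, map_sub, Derivation.leibniz, Derivation.leibniz, h2x, h2l, h2m, h2F2]
    simp only [smul_eq_mul]; ring
  have e1Y : D₁ (wy x y l m) = y := by
    rw [wy_eq, map_add, Derivation.leibniz, Derivation.leibniz, h1y, h1l, h1m, h1F1]
    simp only [smul_eq_mul]; ring
  have e2Y : D₂ (wy x y l m) = fF1 x y := by
    rw [wy_eq, map_add, Derivation.leibniz, Derivation.leibniz, h2y, h2l, h2m, h2F1]
    simp only [smul_eq_mul]; ring
  have e0 := fF_w x y l m
  have hE := euler_fF x y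
  generalize wx x y l m = X at e1X e2X e0 ⊢
  generalize wy x y l m = Y at e1Y e2Y e0 ⊢
  generalize c4F x y = a at h1a h2a e0 ⊢
  generalize c6F x y = b at h1b h2b e0 ⊢
  generalize fF x y = f at h1F h2F e0 hE hf ⊢
  generalize fF1 x y = f1 at h1F1 h2F1 e2Y hE ⊢
  generalize fF2 x y = f2 at h1F2 h2F2 e2X hE ⊢
  have g1 : fF1 X Y * x + fF2 X Y * y = f * pDl a b l m := by
    have h := congrArg D₁ e0
    rw [D_fF, e1X, e1Y, Derivation.leibniz, D_pD D₁ h1a h1b, h1F, h1l, h1m] at h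
    simp only [smul_eq_mul] at h
    linear_combination h
  have g2 : fF1 X Y * (-f2) + fF2 X Y * f1 = f * pDm a b l m := by
    have h := congrArg D₂ e0
    rw [D_fF, e2X, e2Y, Derivation.leibniz, D_pD D₂ h2a h2b, h2F, h2l, h2m] at h
    simp only [smul_eq_mul] at h
    linear_combination h
  have g11 : (fF11 X Y * x + fF12 X Y * y) * x + (fF12 X Y * x + fF22 X Y * y) * y =
      f * pDll a b l m := by
    have h := congrArg D₁ g1
    rw [map_add, Derivation.leibniz, Derivation.leibniz, Derivation.leibniz, D_fF1, D_fF2, e1X,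
      e1Y, D_pDl D₁ h1a h1b, h1F, h1l, h1m, h1x, h1y] at h
    simp only [smul_eq_mul] at h
    linear_combination h
  have g12 : (fF11 X Y * (-f2) + fF12 X Y * f1) * x + (fF12 X Y * (-f2) + fF22 X Y * f1) * y =
      f * pDlm a b l m := by
    have h := congrArg D₂ g1
    rw [map_add, Derivation.leibniz, Derivation.leibniz, Derivation.leibniz, D_fF1, D_fF2, e2X,
      e2Y, D_pDl D₂ h2a h2b, h2F, h2l, h2m, h2x, h2y] at h
    simp only [smul_eq_mul] at h
    linear_combination h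
  have g22 : (fF11 X Y * (-f2) + fF12 X Y * f1) * (-f2) +
      (fF12 X Y * (-f2) + fF22 X Y * f1) * f1 = f * pDmm a b l m := by
    have h := congrArg D₂ g2
    rw [map_add, Derivation.leibniz, Derivation.leibniz, Derivation.leibniz, map_neg, D_fF1,
      D_fF2, e2X, e2Y, D_pDm D₂ h2a h2b, h2F, h2l, h2m, h2F1, h2F2] at h
    simp only [smul_eq_mul] at h
    linear_combination h
  have k0 : c4F X Y = p4 a b l m := by
    have h1 : f ^ 2 * 17424 * (c4F X Y - p4 a b l m) = 0 := by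
      have h2 := hess_pD a b l m
      have h3 := hess_fF X Y
      have h4 : (f * pDll a b l m) * (f * pDmm a b l m) - (f * pDlm a b l m) ^ 2 =
          (fF11 X Y * fF22 X Y - fF12 X Y ^ 2) * (x * f1 + y * f2) ^ 2 := by
        rw [← g11, ← g12, ← g22]
        ring
      rw [hE, h3] at h4
      linear_combination h4 - f ^ 2 * h2
    have h5 : (17424 : A) ≠ 0 := by norm_num
    exact sub_eq_zero.1 ((mul_eq_zero.1 h1).resolve_left (mul_ne_zero (pow_ne_zero 2 hf) h5))
  refine ⟨k0, ?_⟩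
  have k1 : c4F1 X Y * x + c4F2 X Y * y = p4l a b l m := by
    have h := congrArg D₁ k0
    rw [D_c4F, e1X, e1Y, D_p4 D₁ h1a h1b, h1l, h1m] at h
    linear_combination h
  have k2 : c4F1 X Y * (-f2) + c4F2 X Y * f1 = p4m a b l m := by
    have h := congrArg D₂ k0
    rw [D_c4F, e2X, e2Y, D_p4 D₂ h2a h2b, h2l, h2m] at h
    linear_combination h
  have h1 : f * 240 * (c6F X Y - p6 a b l m) = 0 := by
    have h2 := jac_pD a b l m
    have h3 := jac_fF X Y
    have h4 : (f * pDl a b l m) * p4m a b l m - (f * pDm a b l m) * p4l a b l m =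
        (fF1 X Y * c4F2 X Y - fF2 X Y * c4F1 X Y) * (x * f1 + y * f2) := by
      rw [← g1, ← g2, ← k1, ← k2]
      ring
    rw [hE, h3] at h4
    linear_combination f * h2 - h4
  have h5 : (240 : A) ≠ 0 := by norm_num
  exact sub_eq_zero.1 ((mul_eq_zero.1 h1).resolve_left (mul_ne_zero hf h5))

end dom

section maps

variable {R S : Type*} [CommRing R] [CommRing S] (φ : R →+* S)

theorem hom_fF (x y : R) : φ (fF x y) = fF (φ x) (φ y) := by
  simp only [fF, map_add, map_sub, map_mul, map_pow, map_ofNat]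

theorem hom_c4F (x y : R) : φ (c4F x y) = c4F (φ x) (φ y) := by
  simp only [c4F, map_add, map_sub, map_mul, map_pow, map_ofNat]

theorem hom_c6F (x y : R) : φ (c6F x y) = c6F (φ x) (φ y) := by
  simp only [c6F, map_add, map_sub, map_mul, map_pow, map_ofNat, map_neg]

theorem hom_wx (x y l m : R) : φ (wx x y l m) = wx (φ x) (φ y) (φ l) (φ m) := by
  simp only [wx, map_add, map_sub, map_mul, map_pow, map_ofNat]

theorem hom_wy (x y l m : R) : φ (wy x y l m) = wy (φ x) (φ y) (φ l) (φ m) := by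
  simp only [wy, map_add, map_sub, map_mul, map_pow, map_ofNat]

theorem hom_p4 (c4 c6 l m : R) :
    φ (p4 c4 c6 l m) = p4 (φ c4) (φ c6) (φ l) (φ m) := by
  simp only [p4, u0, u1, u2, u3, u4, u5, u6, u7, u8, u9, u10, u11, u12, u13, u14, u15, u16, u17,
    u18, u19, u20, map_add, map_sub, map_mul, map_neg, map_pow, map_ofNat]

theorem hom_p6 (c4 c6 l m : R) :
    φ (p6 c4 c6 l m) = p6 (φ c4) (φ c6) (φ l) (φ m) := by
  simp only [p6, v0, v1, v2, v3, v4, v5, v6, v7, v8, v9, v10, v11, v12, v13, v14, v15, v16, v17,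
    v18, v19, v20, v21, v22, v23, v24, v25, v26, v27, v28, v29, v30,
    map_add, map_sub, map_mul, map_neg, map_pow, map_ofNat]

end maps

open MvPolynomial in
theorem univ_ids :
    (c4F (wx (X 0) (X 1) (X 2) (X 3)) (wy (X 0) (X 1) (X 2) (X 3)) =
      p4 (c4F (X 0) (X 1)) (c6F (X 0) (X 1)) (X 2) (X 3 : MvPolynomial (Fin 4) ℤ)) ∧
    (c6F (wx (X 0) (X 1) (X 2) (X 3)) (wy (X 0) (X 1) (X 2) (X 3)) =
      p6 (c4F (X 0) (X 1)) (c6F (X 0) (X 1)) (X 2) (X 3 : MvPolynomial (Fin 4) ℤ)) := by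
  refine dom_ids (pderiv 2) (pderiv 3) ?_ ?_ ?_ ?_ ?_ ?_ ?_ ?_ ?_
  · exact pderiv_X_of_ne (by decide)
  · exact pderiv_X_of_ne (by decide)
  · exact pderiv_X_self 2
  · exact pderiv_X_of_ne (by decide)
  · exact pderiv_X_of_ne (by decide)
  · exact pderiv_X_of_ne (by decide)
  · exact pderiv_X_of_ne (by decide)
  · exact pderiv_X_self 3
  · intro h0
    have h := congrArg (eval₂Hom (RingHom.id ℤ) (fun _ : Fin 4 => (1 : ℤ))) h0
    rw [hom_fF, map_zero] at h
    simp [fF] at h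

section general

variable {R : Type*} [CommRing R]

theorem c4F_w (x y l m : R) :
    c4F (wx x y l m) (wy x y l m) = p4 (c4F x y) (c6F x y) l m := by
  have h := congrArg (MvPolynomial.eval₂Hom (Int.castRingHom R) ![x, y, l, m]) univ_ids.1
  rw [hom_c4F, hom_wx, hom_wy, hom_p4, hom_c4F, hom_c6F] at h
  simpa using h

theorem c6F_w (x y l m : R) :
    c6F (wx x y l m) (wy x y l m) = p6 (c4F x y) (c6F x y) l m := by
  have h := congrArg (MvPolynomial.eval₂Hom (Int.castRingHom R) ![x, y, l, m]) univ_ids.2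
  rw [hom_c6F, hom_wx, hom_wy, hom_p6, hom_c4F, hom_c6F] at h
  simpa using h

end general

end Fermat.Agent.SW
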