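import Fermat.Agent.SW.Away

/-!
# The 3-division polynomial of the family has no polynomial root
-/

set_option autoImplicit false
set_option linter.unusedVariables false

noncomputable section

namespace Fermat.Agent.SW

open Polynomial

section ring

variable {R S : Type*} [CommRing R] [CommRing S]

theorem map_pD (φ : R →+* S) (c4 c6 l m : R) :
    φ (pD c4 c6 l m) = pD (φ c4) (φ c6) (φ l) (φ m) := by
  simp only [pD, d0, d2, d3, d4, d5, d6, d7, d8, d9, d10, d11, d12, map_add, map_sub, map_mul,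
    map_neg, map_pow, map_ofNat, map_one]

end ring

variable (c4 c6 : ℂ)

/-- The discriminant form at `l = 1`. -/
def DD : ℂ[X] := pD (C c4) (C c6) 1 X

theorem DD_eq : DD c4 c6 = C (d0 c4 c6) + C (d2 c4 c6) * X ^ 2 + C (d3 c4 c6) * X ^ 3 +
    C (d4 c4 c6) * X ^ 4 + C (d5 c4 c6) * X ^ 5 + C (d6 c4 c6) * X ^ 6 + C (d7 c4 c6) * X ^ 7 +
    C (d8 c4 c6) * X ^ 8 + C (d9 c4 c6) * X ^ 9 + C (d10 c4 c6) * X ^ 10 +
    C (d11 c4 c6) * X ^ 11 + C (d12 c4 c6) * X ^ 12 := by
  simp only [DD, pD, d0, d2, d3, d4, d5, d6, d7, d8, d9, d10, d11, d12, C_add, C_sub, C_mul, C_neg,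
    C_pow, C_1, one_pow, mul_one, one_mul, map_ofNat]

theorem natDegree_DD (h : d12 c4 c6 ≠ 0) : (DD c4 c6).natDegree = 12 := by
  rw [DD_eq]
  compute_degree!

theorem hess (m : ℂ) : 11 * (derivative (DD c4 c6)).eval m ^ 2 -
    12 * (DD c4 c6).eval m * (derivative (derivative (DD c4 c6))).eval m =
    1584 * p4 c4 c6 1 m := by
  rw [DD_eq]
  simp only [derivative_add, derivative_mul, derivative_C, derivative_X_pow, derivative_X,
    eval_add, eval_mul, eval_C, eval_pow, eval_X, zero_mul, zero_add, map_natCast, eval_natCast,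
    derivative_natCast]
  simp only [p4, u0, u1, u2, u3, u4, u5, u6, u7, u8, u9, u10, u11, u12, u13, u14, u15, u16, u17,
    u18, u19, u20, d0, d2, d3, d4, d5, d6, d7, d8, d9, d10, d11, d12]
  push_cast
  ring

/-- The multiplicity argument. -/
theorem core (c : ℂ) (hc : c ≠ 0) (D A B Q : ℂ[X]) (hrel : A ^ 3 - B ^ 2 = C c * D ^ 5)
    (hD : D.natDegree = 12) (hA : A.natDegree ≤ 20) (hB : B.natDegree ≤ 30)
    (hroot : ∀ ρ : ℂ, D.eval ρ = 0 → A.eval ρ ≠ 0 ∧ (derivative D).eval ρ ≠ 0)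
    (hQ : Q ^ 4 - 6 * A * Q ^ 2 - 8 * B * Q - 3 * A ^ 2 = 0) : False := by
  have hD0 : D ≠ 0 := by
    rintro rfl
    simp at hD
  have hQ0 : Q ≠ 0 := by
    rintro rfl
    have hA0 : A = 0 := by
      have h1 : 3 * A ^ 2 = 0 := by linear_combination -hQ
      rcases mul_eq_zero.1 h1 with h | h
      · norm_num at h
      · exact pow_eq_zero_iff (by norm_num) |>.1 h
    obtain ⟨ρ, hρ⟩ := IsAlgClosed.exists_root D (by
      intro h0
      have h1 := Polynomial.natDegree_le_of_degree_le (n := 0) (le_of_eq h0)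
      omega)
    apply (hroot ρ hρ).1
    rw [hA0, eval_zero]
  -- the degree of `Q`
  have hQd : Q.natDegree ≤ 10 := by
    by_contra hlt
    push Not at hlt
    have h1 : Q ^ 4 = 6 * A * Q ^ 2 + 8 * B * Q + 3 * A ^ 2 := by linear_combination hQ
    have h2 : (Q ^ 4).natDegree = 4 * Q.natDegree := natDegree_pow _ _
    have h3 : (6 * A * Q ^ 2 + 8 * B * Q + 3 * A ^ 2).natDegree < 4 * Q.natDegree := by
      have e1 : (6 * A * Q ^ 2).natDegree ≤ 20 + 2 * Q.natDegree := by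
        refine natDegree_mul_le.trans ?_
        have : (6 * A).natDegree ≤ 20 := by
          refine natDegree_mul_le.trans ?_
          have : (6 : ℂ[X]).natDegree = 0 := natDegree_ofNat 6
          omega
        have := natDegree_pow Q 2
        omega
      have e2 : (8 * B * Q).natDegree ≤ 30 + Q.natDegree := by
        refine natDegree_mul_le.trans ?_
        have : (8 * B).natDegree ≤ 30 := by
          refine natDegree_mul_le.trans ?_
          have : (8 : ℂ[X]).natDegree = 0 := natDegree_ofNat 8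
          omega
        omega
      have e3 : (3 * A ^ 2).natDegree ≤ 40 := by
        refine natDegree_mul_le.trans ?_
        have : (3 : ℂ[X]).natDegree = 0 := natDegree_ofNat 3
        have := natDegree_pow A 2
        omega
      have e4 := natDegree_add_le (6 * A * Q ^ 2 + 8 * B * Q) (3 * A ^ 2)
      have e5 := natDegree_add_le (6 * A * Q ^ 2) (8 * B * Q)
      omega
    rw [← h1, h2] at h3
    exact lt_irrefl _ h3
  have hid : (Q ^ 2 - A) ^ 3 * (Q ^ 2 - 9 * A) = C (-64 * c) * Q ^ 2 * D ^ 5 := by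
    have h1 : Q ^ 4 - 6 * A * Q ^ 2 - 3 * A ^ 2 = 8 * B * Q := by linear_combination hQ
    have h2 : (Q ^ 2 - A) ^ 3 * (Q ^ 2 - 9 * A) =
        (Q ^ 4 - 6 * A * Q ^ 2 - 3 * A ^ 2) ^ 2 - 64 * A ^ 3 * Q ^ 2 := by ring
    rw [h2, h1, map_mul, map_neg, map_ofNat]
    linear_combination (-64 * Q ^ 2) * hrel
  have hcp : ∀ ρ : ℂ, D.eval ρ = 0 → (Q ^ 2 - A).eval ρ ≠ 0 := by
    intro ρ hρ hU
    obtain ⟨hAρ, hD'⟩ := hroot ρ hρ
    have hQρ : Q.eval ρ ≠ 0 := by
      intro h0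
      have := congrArg (eval ρ) hQ
      simp only [eval_sub, eval_mul, eval_pow, h0, eval_zero, eval_ofNat] at this
      apply hAρ
      have h1 : 3 * (A.eval ρ) ^ 2 = 0 := by linear_combination -this
      rcases mul_eq_zero.1 h1 with h | h
      · norm_num at h
      · exact pow_eq_zero_iff (by norm_num) |>.1 h
    have hV : (Q ^ 2 - 9 * A).eval ρ ≠ 0 := by
      intro h0
      apply hAρ
      simp only [eval_sub, eval_mul, eval_pow, eval_ofNat] at h0 hU
      linear_combination (hU - h0) / 8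
    have hR : C (-64 * c) * Q ^ 2 * D ^ 5 ≠ 0 := by
      refine mul_ne_zero (mul_ne_zero ?_ (pow_ne_zero _ hQ0)) (pow_ne_zero _ hD0)
      rw [Ne, C_eq_zero]
      exact mul_ne_zero (by norm_num) hc
    have hL : (Q ^ 2 - A) ^ 3 * (Q ^ 2 - 9 * A) ≠ 0 := by
      rw [hid]; exact hR
    have hDm : D.rootMultiplicity ρ = 1 := by
      have h1 : 0 < D.rootMultiplicity ρ := (rootMultiplicity_pos hD0).2 hρ
      have h2 : ¬ 1 < D.rootMultiplicity ρ := by
        rw [one_lt_rootMultiplicity_iff_isRoot hD0]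
        exact fun h => hD' h.2
      omega
    have hW : ¬ IsRoot (C (-64 * c) * Q ^ 2) ρ := by
      rw [IsRoot.def, eval_mul, eval_C, eval_pow]
      exact mul_ne_zero (mul_ne_zero (by norm_num) hc) (pow_ne_zero _ hQρ)
    have h1 : ((Q ^ 2 - A) ^ 3 * (Q ^ 2 - 9 * A)).roots.count ρ =
        (C (-64 * c) * Q ^ 2 * D ^ 5).roots.count ρ := by rw [hid]
    rw [roots_mul hL, roots_mul hR, roots_pow, roots_pow, Multiset.count_add, Multiset.count_add,
      Multiset.count_nsmul, Multiset.count_nsmul, count_roots, count_roots, count_roots,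
      count_roots, hDm, rootMultiplicity_eq_zero hV, rootMultiplicity_eq_zero hW] at h1
    omega
  have hcop : IsCoprime (D ^ 5) ((Q ^ 2 - A) ^ 3) := by
    apply IsCoprime.pow
    by_contra hnc
    rw [Polynomial.isCoprime_iff_aeval_ne_zero_of_isAlgClosed ℂ ℂ] at hnc
    push Not at hnc
    obtain ⟨ρ, h1, h2⟩ := hnc
    rw [coe_aeval_eq_eval] at h1 h2
    exact hcp ρ h1 h2
  have hdvd : D ^ 5 ∣ Q ^ 2 - 9 * A := by
    refine hcop.dvd_of_dvd_mul_left ?_
    rw [hid]
    exact dvd_mul_left _ _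
  have hV0 : Q ^ 2 - 9 * A = 0 := by
    by_contra hne
    have h1 := natDegree_le_of_dvd hdvd hne
    rw [natDegree_pow, hD] at h1
    have h2 := natDegree_sub_le (Q ^ 2) (9 * A)
    have h3 : (9 * A).natDegree ≤ 20 := by
      refine natDegree_mul_le.trans ?_
      have : (9 : ℂ[X]).natDegree = 0 := natDegree_ofNat 9
      omega
    rw [natDegree_pow] at h2
    omega
  rw [hV0, mul_zero] at hid
  have h1 : C (-64 * c) * Q ^ 2 * D ^ 5 ≠ 0 := by
    refine mul_ne_zero (mul_ne_zero ?_ (pow_ne_zero _ hQ0)) (pow_ne_zero _ hD0)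
    rw [Ne, C_eq_zero]
    exact mul_ne_zero (by norm_num) hc
  exact h1 hid.symm

/-- The relation between the polynomials of the family. -/
theorem rel_poly (h : c4 ^ 3 ≠ c6 ^ 2) : p4 (C c4) (C c6) 1 X ^ 3 - p6 (C c4) (C c6) 1 X ^ 2 =
    C (c4 ^ 3 - c6 ^ 2) * DD c4 c6 ^ 5 := by
  obtain ⟨x, y, hx, hy⟩ := exists_v (by norm_num) (by norm_num) c4 c6 h
  have hx' : c4F (C x) (C y) = C c4 := by
    rw [← hx]; simp only [c4F, map_add, map_sub, map_mul, map_pow, map_ofNat]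
  have hy' : c6F (C x) (C y) = C c6 := by
    rw [← hy]; simp only [c6F, map_add, map_sub, map_mul, map_pow, map_ofNat, map_neg]
  have h4 := c4F_w (C x) (C y) 1 X
  have h6 := c6F_w (C x) (C y) 1 X
  have hf := fF_w (C x) (C y) 1 X
  rw [hx', hy'] at h4 h6 hf
  have h0 := rel (C x) (C y)
  rw [hx', hy'] at h0
  rw [← h4, ← h6, rel, hf, map_sub, map_pow, map_pow, h0, DD]
  ring

theorem natDegree_p4_le : (p4 (C c4) (C c6) 1 X).natDegree ≤ 20 := by
  unfold p4 u0 u1 u2 u3 u4 u5 u6 u7 u8 u9 u10 u11 u12 u13 u14 u15 u16 u17 u18 u19 u20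
  simp only [one_pow, mul_one]
  compute_degree

theorem natDegree_p6_le : (p6 (C c4) (C c6) 1 X).natDegree ≤ 30 := by
  unfold p6 v0 v1 v2 v3 v4 v5 v6 v7 v8 v9 v10 v11 v12 v13 v14 v15 v16 v17 v18 v19 v20 v21 v22 v23
    v24 v25 v26 v27 v28 v29 v30
  simp only [one_pow, mul_one]
  compute_degree

theorem eval_p4_one (m : ℂ) : (p4 (C c4) (C c6) 1 X).eval m = p4 c4 c6 1 m := by
  have := map_p4 (evalRingHom m) (C c4) (C c6) 1 X
  simpa using this

theorem eval_p6_one (m : ℂ) : (p6 (C c4) (C c6) 1 X).eval m = p6 c4 c6 1 m := by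
  have := map_p6 (evalRingHom m) (C c4) (C c6) 1 X
  simpa using this

/-- The case of the identical parametrisation. -/
theorem no_sq_identity_one (h : c4 ^ 3 ≠ c6 ^ 2)
    (hrat : 102400 * c6 ^ 4 - 193536 * c4 ^ 3 * c6 ^ 2 + 91125 * c4 ^ 6 ≠ 0) (Q : ℂ[X])
    (hQ : Q ^ 4 - 6 * p4 (C c4) (C c6) 1 X * Q ^ 2 - 8 * p6 (C c4) (C c6) 1 X * Q -
      3 * p4 (C c4) (C c6) 1 X ^ 2 = 0) : False := by
  refine core (c4 ^ 3 - c6 ^ 2) (sub_ne_zero.2 h) (DD c4 c6) _ _ Q (rel_poly c4 c6 h)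
    (natDegree_DD c4 c6 hrat) (natDegree_p4_le c4 c6) (natDegree_p6_le c4 c6) ?_ hQ
  intro ρ hρ
  have hA : p4 c4 c6 1 ρ ≠ 0 := by
    intro hA
    have hB : p6 c4 c6 1 ρ = 0 := by
      have h1 := congrArg (eval ρ) (rel_poly c4 c6 h)
      rw [eval_sub, eval_mul, eval_pow, eval_pow, eval_pow, eval_C, hρ, eval_p4_one, eval_p6_one,
        hA] at h1
      have h2 : p6 c4 c6 1 ρ ^ 2 = 0 := by linear_combination -h1
      exact pow_eq_zero_iff (by norm_num) |>.1 h2
    exact one_ne_zero (zero_of_p4_p6 (by norm_num) (by norm_num) c4 c6 h 1 ρ hA hB).1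
  refine ⟨by rw [eval_p4_one]; exact hA, ?_⟩
  intro hD'
  have h1 := hess c4 c6 ρ
  rw [hρ, hD'] at h1
  apply hA
  linear_combination -h1 / 1584

/-- The `3`-division polynomial of the family has no polynomial root. -/
theorem no_sq_identity (h : c4 ^ 3 ≠ c6 ^ 2)
    (hrat : 102400 * c6 ^ 4 - 193536 * c4 ^ 3 * c6 ^ 2 + 91125 * c4 ^ 6 ≠ 0)
    {a b : ℂ} (ha : a ≠ 0) (Q : ℂ[X])
    (hQ : Q ^ 4 - 6 * p4 (C c4) (C c6) 1 (C a * X + C b) * Q ^ 2 -
      8 * p6 (C c4) (C c6) 1 (C a * X + C b) * Q -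
      3 * p4 (C c4) (C c6) 1 (C a * X + C b) ^ 2 = 0) : False := by
  have hL : (C a * X + C b).comp (C a⁻¹ * X - C (b / a)) = (X : ℂ[X]) := by
    simp only [add_comp, mul_comp, C_comp, X_comp]
    rw [mul_sub, ← mul_assoc, ← C_mul, ← C_mul, mul_inv_cancel₀ ha, mul_div_cancel₀ _ ha, C_1,
      one_mul, sub_add_cancel]
  have h4 : (p4 (C c4) (C c6) 1 (C a * X + C b)).comp (C a⁻¹ * X - C (b / a)) =
      p4 (C c4) (C c6) 1 X := by
    have := map_p4 (compRingHom (C a⁻¹ * X - C (b / a))) (C c4) (C c6) 1 (C a * X + C b)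
    simp only [coe_compRingHom_apply, C_comp, one_comp] at this
    rw [this, hL]
  have h6 : (p6 (C c4) (C c6) 1 (C a * X + C b)).comp (C a⁻¹ * X - C (b / a)) =
      p6 (C c4) (C c6) 1 X := by
    have := map_p6 (compRingHom (C a⁻¹ * X - C (b / a))) (C c4) (C c6) 1 (C a * X + C b)
    simp only [coe_compRingHom_apply, C_comp, one_comp] at this
    rw [this, hL]
  apply no_sq_identity_one c4 c6 h hrat (Q.comp (C a⁻¹ * X - C (b / a)))
  have h1 := congrArg (fun P : ℂ[X] => P.comp (C a⁻¹ * X - C (b / a))) hQ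
  simp only [sub_comp, mul_comp, pow_comp, ofNat_comp, zero_comp] at h1
  rw [h4, h6] at h1
  exact h1

end Fermat.Agent.SW
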